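/-
S55 / 44-DUALIZING (helper59), part 1: functoriality of the level cohomology of `Profin15`
(pull back along a continuous group homomorphism, push forward along an equivariant linear map).
Same pattern as the Prelude's `continuousH2Map`.
-/
import Fermat.Agent.S55.Profin15.Cohomology
import Fermat.Prelude.Def_GroupCohomology_ContinuousH2Map

set_option autoImplicit false

universe u

open CategoryTheory groupCohomology

namespace Fermat.Agent.S55.Dualizing59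

open Fermat.Agent.S55.Profin15

variable {k : Type u} [CommRing k] {G H : Type u} [Group G] [Group H]

/-- A group homomorphism is continuous for the level structures. -/
def IsCont (𝒰 : LevelStr G) (𝒱 : LevelStr H) (f : G →* H) : Prop :=
  ∀ V ∈ 𝒱.levels, ∃ U ∈ 𝒰.levels, ∀ s ∈ U, f s ∈ V

theorem isCont_id (𝒰 : LevelStr G) : IsCont 𝒰 𝒰 (MonoidHom.id G) :=
  fun V hV => ⟨V, hV, fun _ hs => hs⟩

/-- Equivariance of a linear map along a group homomorphism. -/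
def IsEquivariant (f : G →* H) (A : Rep k H) (B : Rep k G) (φ : A →ₗ[k] B) : Prop :=
  ∀ (g : G) (a : A), φ (A.ρ (f g) a) = B.ρ g (φ a)

section precomp

variable {𝒰 : LevelStr G} {𝒱 : LevelStr H} {f : G →* H}

lemma IsConst₁.precomp (hf : IsCont 𝒰 𝒱 f) {X : Type*} {x : H → X} (hx : 𝒱.IsConst₁ x) :
    𝒰.IsConst₁ (x ∘ f) := by
  obtain ⟨V, hV, h⟩ := hx
  obtain ⟨U, hU, hUV⟩ := hf V hV
  refine ⟨U, hU, fun g s hs => ?_⟩
  simp only [Function.comp_apply, map_mul]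
  exact h (f g) (f s) (hUV s hs)

lemma IsConst₂.precomp (hf : IsCont 𝒰 𝒱 f) {X : Type*} {x : H × H → X} (hx : 𝒱.IsConst₂ x) :
    𝒰.IsConst₂ (x ∘ Prod.map f f) := by
  obtain ⟨V, hV, h⟩ := hx
  obtain ⟨U, hU, hUV⟩ := hf V hV
  refine ⟨U, hU, fun g g' s s' hs hs' => ?_⟩
  simp only [Function.comp_apply, Prod.map_apply, map_mul]
  exact h (f g) (f g') (f s) (f s') (hUV s hs) (hUV s' hs')

end precomp

section maps

variable {𝒰 : LevelStr G} {𝒱 : LevelStr H} {f : G →* H} (hf : IsCont 𝒰 𝒱 f)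
variable {A : Rep k H} {B : Rep k G} {φ : A →ₗ[k] B} (hφ : IsEquivariant f A B φ)

include hφ in
lemma pullPush₁_mem_cocycles₁ {x : H → A} (hx : x ∈ cocycles₁ A) :
    cochainsPullPush₁ f φ x ∈ cocycles₁ B := by
  rw [mem_cocycles₁_iff] at hx ⊢
  intro g h
  simp only [cochainsPullPush₁_apply, map_mul, hx, map_add, hφ g]

include hφ in
lemma pullPush₁_d₀₁ (a : A) :
    cochainsPullPush₁ f φ ((d₀₁ A).hom a) = (d₀₁ B).hom (φ a) := by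
  ext g
  simp only [cochainsPullPush₁_apply, d₀₁_hom_apply, map_sub, hφ g]

include hφ in
lemma pullPush₁_mem_coboundaries₁ {x : H → A} (hx : x ∈ coboundaries₁ A) :
    cochainsPullPush₁ f φ x ∈ coboundaries₁ B := by
  obtain ⟨a, rfl⟩ := hx
  exact ⟨φ a, (pullPush₁_d₀₁ hφ a).symm⟩

include hf in
lemma pullPush₁_mem_C₁ {x : H → A} (hx : x ∈ 𝒱.C₁ A) : cochainsPullPush₁ f φ x ∈ 𝒰.C₁ B :=
  ((IsConst₁.precomp hf hx).comp φ :)

include hf in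
lemma pullPush₂_mem_C₂ {x : H × H → A} (hx : x ∈ 𝒱.C₂ A) : cochainsPullPush₂ f φ x ∈ 𝒰.C₂ B :=
  ((IsConst₂.precomp hf hx).comp φ :)

include hf hφ in
lemma pullPush₁_mem_Z₁ {x : H → A} (hx : x ∈ 𝒱.Z₁ A) : cochainsPullPush₁ f φ x ∈ 𝒰.Z₁ B :=
  ⟨pullPush₁_mem_cocycles₁ hφ hx.1, pullPush₁_mem_C₁ hf hx.2⟩

include hf hφ in
lemma pullPush₂_mem_Z₂ {x : H × H → A} (hx : x ∈ 𝒱.Z₂ A) : cochainsPullPush₂ f φ x ∈ 𝒰.Z₂ B :=
  ⟨cochainsPullPush₂_mem_cocycles₂ f φ hφ hx.1, pullPush₂_mem_C₂ hf hx.2⟩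

include hf hφ in
lemma pullPush₂_mem_B₂ {x : H × H → A} (hx : x ∈ 𝒱.B₂ A) : cochainsPullPush₂ f φ x ∈ 𝒰.B₂ B := by
  obtain ⟨y, hy, rfl⟩ := (𝒱.mem_B₂_iff A x).1 hx
  exact (𝒰.mem_B₂_iff B _).2
    ⟨cochainsPullPush₁ f φ y, (IsConst₁.precomp hf hy).comp φ, (cochainsPullPush₂_d₁₂ f φ hφ y).symm⟩

/-- map on level `1`-cocycles -/
def Z₁map : ↥(𝒱.Z₁ A) →ₗ[k] ↥(𝒰.Z₁ B) :=
  (cochainsPullPush₁ f φ).restrict fun _ hx => pullPush₁_mem_Z₁ hf hφ hx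

/-- map on level `2`-cocycles -/
def Z₂map : ↥(𝒱.Z₂ A) →ₗ[k] ↥(𝒰.Z₂ B) :=
  (cochainsPullPush₂ f φ).restrict fun _ hx => pullPush₂_mem_Z₂ hf hφ hx

@[simp] lemma coe_Z₁map (x : ↥(𝒱.Z₁ A)) :
    (Z₁map hf hφ x : G → B) = cochainsPullPush₁ f φ x := rfl

@[simp] lemma coe_Z₂map (x : ↥(𝒱.Z₂ A)) :
    (Z₂map hf hφ x : G × G → B) = cochainsPullPush₂ f φ x := rfl

/-- the map induced on level `H¹` -/
def H1map : 𝒱.H1 A →ₗ[k] 𝒰.H1 B :=
  Submodule.mapQ _ _ (Z₁map hf hφ) fun _ hx => pullPush₁_mem_coboundaries₁ hφ hx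

/-- the map induced on level `H²` -/
def H2map : 𝒱.H2 A →ₗ[k] 𝒰.H2 B :=
  Submodule.mapQ _ _ (Z₂map hf hφ) fun _ hx => pullPush₂_mem_B₂ hf hφ hx

@[simp] lemma H1map_H1π (x : ↥(𝒱.Z₁ A)) :
    H1map hf hφ (𝒱.H1π A x) = 𝒰.H1π B (Z₁map hf hφ x) := rfl

@[simp] lemma H2map_H2π (x : ↥(𝒱.Z₂ A)) :
    H2map hf hφ (𝒱.H2π A x) = 𝒰.H2π B (Z₂map hf hφ x) := rfl

end maps

end Fermat.Agent.S55.Dualizing59
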