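/-
S55 / 44-DUALIZING (helper59), part 2: representability (Serre, GC I.3.5; Eilenberg–Watts at
finite level).

`theta 𝒰 Y Λ N : Hom_G(N, Y) → H²(N)^*`, `φ ↦ Λ ∘ H²(φ)`.  If `H²` is right exact on smooth
finite-dimensional modules (surjections go to surjections: `cd ≤ 2`) and `theta` is bijective on the
permutation modules `k^(G/V)` for a cofinal family of levels `V`, then `theta` is bijective on every
smooth finite-dimensional module.
-/
import Fermat.Agent.S55.Dualizing59.Map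

set_option autoImplicit false

universe u

open CategoryTheory groupCohomology

namespace Fermat.Agent.S55.Dualizing59

open Fermat.Agent.S55.Profin15

variable {k : Type u} [Field k] {G : Type u} [Group G]

/-- `G`-equivariant linear maps between two representations, as a submodule. -/
def eqHom (A B : Rep k G) : Submodule k (A →ₗ[k] B) where
  carrier := {φ | IsEquivariant (MonoidHom.id G) A B φ}
  add_mem' := by
    intro φ ψ hφ hψ g a
    simp only [LinearMap.add_apply, map_add, hφ g a, hψ g a]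
  zero_mem' := by
    intro g a
    simp
  smul_mem' := by
    intro c φ hφ g a
    simp only [LinearMap.smul_apply, map_smul, hφ g a]

lemma mem_eqHom_iff {A B : Rep k G} (φ : A →ₗ[k] B) :
    φ ∈ eqHom A B ↔ ∀ (g : G) (a : A), φ (A.ρ g a) = B.ρ g (φ a) := Iff.rfl

/-- composition of equivariant maps -/
def eqComp {A B C : Rep k G} (ψ : eqHom B C) (φ : eqHom A B) : eqHom A C :=
  ⟨ψ.1 ∘ₗ φ.1, fun g a => by
    have h1 := φ.2 g a
    have h2 := ψ.2 g (φ.1 a)
    simp only [MonoidHom.id_apply] at h1 h2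
    simp only [LinearMap.comp_apply, MonoidHom.id_apply, h1, h2]⟩

/-- identity as an equivariant map -/
def eqId (A : Rep k G) : eqHom A A := ⟨LinearMap.id, fun _ _ => rfl⟩

variable (𝒰 : LevelStr G)

/-- `H²` of an equivariant map. -/
def H2m {A B : Rep k G} (φ : eqHom A B) : 𝒰.H2 A →ₗ[k] 𝒰.H2 B :=
  H2map (isCont_id 𝒰) φ.2

lemma H2m_H2π {A B : Rep k G} (φ : eqHom A B) (x : ↥(𝒰.Z₂ A)) :
    H2m 𝒰 φ (𝒰.H2π A x) = 𝒰.H2π B (Z₂map (isCont_id 𝒰) φ.2 x) := rfl

lemma H2m_comp {A B C : Rep k G} (ψ : eqHom B C) (φ : eqHom A B) :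
    H2m 𝒰 (eqComp ψ φ) = H2m 𝒰 ψ ∘ₗ H2m 𝒰 φ := by
  apply LinearMap.ext
  intro x
  obtain ⟨x, rfl⟩ := Submodule.mkQ_surjective _ x
  rfl

lemma H2m_id (A : Rep k G) : H2m 𝒰 (eqId A) = LinearMap.id := by
  apply LinearMap.ext
  intro x
  obtain ⟨x, rfl⟩ := Submodule.mkQ_surjective _ x
  rfl

lemma H2m_add {A B : Rep k G} (φ ψ : eqHom A B) :
    H2m 𝒰 (φ + ψ) = H2m 𝒰 φ + H2m 𝒰 ψ := by
  apply LinearMap.ext
  intro x
  obtain ⟨x, rfl⟩ := Submodule.mkQ_surjective _ x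
  rw [LinearMap.add_apply]
  show 𝒰.H2π B _ = 𝒰.H2π B _ + 𝒰.H2π B _
  rw [← map_add]
  congr 1

lemma H2m_smul {A B : Rep k G} (c : k) (φ : eqHom A B) :
    H2m 𝒰 (c • φ) = c • H2m 𝒰 φ := by
  apply LinearMap.ext
  intro x
  obtain ⟨x, rfl⟩ := Submodule.mkQ_surjective _ x
  rw [LinearMap.smul_apply]
  show 𝒰.H2π B _ = c • 𝒰.H2π B _
  rw [← map_smul]
  congr 1

lemma H2m_zero {A B : Rep k G} : H2m 𝒰 (0 : eqHom A B) = 0 := by
  have := H2m_smul 𝒰 (0 : k) (0 : eqHom A B)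
  simpa using this

/-- `H²` of equivariant maps, as a linear map in the equivariant map. -/
def H2mL (A B : Rep k G) : eqHom A B →ₗ[k] (𝒰.H2 A →ₗ[k] 𝒰.H2 B) where
  toFun φ := H2m 𝒰 φ
  map_add' φ ψ := H2m_add 𝒰 φ ψ
  map_smul' c φ := H2m_smul 𝒰 c φ

@[simp] lemma H2mL_apply {A B : Rep k G} (φ : eqHom A B) : H2mL 𝒰 A B φ = H2m 𝒰 φ := rfl

variable (Y : Rep k G) (Λ : 𝒰.H2 Y →ₗ[k] k)

/-- The functional on `H²(N)` attached to an equivariant map `N → Y`: `φ ↦ Λ ∘ H²(φ)`. -/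
def theta (N : Rep k G) : eqHom N Y →ₗ[k] Module.Dual k (𝒰.H2 N) where
  toFun φ := Λ ∘ₗ H2m 𝒰 φ
  map_add' φ ψ := by rw [H2m_add, LinearMap.comp_add]
  map_smul' c φ := by rw [H2m_smul, LinearMap.comp_smul]; rfl

@[simp] lemma theta_apply (N : Rep k G) (φ : eqHom N Y) : theta 𝒰 Y Λ N φ = Λ ∘ₗ H2m 𝒰 φ := rfl

lemma theta_comp {P N : Rep k G} (φ : eqHom N Y) (π : eqHom P N) :
    theta 𝒰 Y Λ P (eqComp φ π) = theta 𝒰 Y Λ N φ ∘ₗ H2m 𝒰 π := by
  simp only [theta_apply, H2m_comp, LinearMap.comp_assoc]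

/-- **Lemma A**: injectivity of `theta` passes to quotients. -/
lemma theta_injective_of_surjective {P N : Rep k G} (π : eqHom P N)
    (hπ : Function.Surjective π.1) (hP : Function.Injective (theta 𝒰 Y Λ P)) :
    Function.Injective (theta 𝒰 Y Λ N) := by
  rw [injective_iff_map_eq_zero] at hP ⊢
  intro φ hφ
  have h1 : theta 𝒰 Y Λ P (eqComp φ π) = 0 := by rw [theta_comp, hφ, LinearMap.zero_comp]
  have h0 := hP _ h1
  apply Subtype.ext
  apply LinearMap.ext
  intro n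
  obtain ⟨p, rfl⟩ := hπ n
  have := congrArg (fun ψ : eqHom P Y => ψ.1 p) h0
  simpa [eqComp] using this

/-- **Lemma B**: surjectivity of `theta` on a quotient `N = P/K`, given right exactness. -/
lemma theta_surjective_of_cover {P N K : Rep k G} (π : eqHom P N)
    (hπ : Function.Surjective π.1) (ι : eqHom K P)
    (hker : ∀ p, π.1 p = 0 → ∃ κ, ι.1 κ = p) (hπι : ∀ κ, π.1 (ι.1 κ) = 0)
    (hP : Function.Surjective (theta 𝒰 Y Λ P)) (hK : Function.Injective (theta 𝒰 Y Λ K))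
    (hH : Function.Surjective (H2m 𝒰 π)) :
    Function.Surjective (theta 𝒰 Y Λ N) := by
  intro t
  obtain ⟨ψ, hψ⟩ := hP (t ∘ₗ H2m 𝒰 π)
  -- `ψ` kills `K`
  have hzero : eqComp π ι = 0 := by
    apply Subtype.ext
    apply LinearMap.ext
    intro κ
    exact hπι κ
  have h1 : theta 𝒰 Y Λ K (eqComp ψ ι) = 0 := by
    rw [theta_comp, hψ, LinearMap.comp_assoc, ← H2m_comp, hzero, H2m_zero, LinearMap.comp_zero]
  have h2 : eqComp ψ ι = 0 := (injective_iff_map_eq_zero _).1 hK _ h1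
  have hle : LinearMap.ker π.1 ≤ LinearMap.ker ψ.1 := by
    intro p hp
    obtain ⟨κ, rfl⟩ := hker p (LinearMap.mem_ker.1 hp)
    have := congrArg (fun χ : eqHom K Y => χ.1 κ) h2
    simpa [eqComp] using this
  -- factor `ψ` through `π`
  let φ₀ : N →ₗ[k] Y :=
    (LinearMap.ker π.1).liftQ ψ.1 hle ∘ₗ (π.1.quotKerEquivOfSurjective hπ).symm.toLinearMap
  have hφ₀ : ∀ p, φ₀ (π.1 p) = ψ.1 p := by
    intro p
    have : (π.1.quotKerEquivOfSurjective hπ).symm (π.1 p) = Submodule.Quotient.mk p := by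
      rw [LinearEquiv.symm_apply_eq]
      rfl
    simp only [φ₀, LinearMap.comp_apply, LinearEquiv.coe_coe, this, Submodule.liftQ_apply]
  have hφeq : φ₀ ∈ eqHom N Y := by
    intro g n
    obtain ⟨p, rfl⟩ := hπ n
    have h3 := π.2 g p
    have h4 := ψ.2 g p
    simp only [MonoidHom.id_apply] at h3 h4 ⊢
    rw [← h3, hφ₀, hφ₀, h4]
  refine ⟨⟨φ₀, hφeq⟩, ?_⟩
  apply LinearMap.ext
  intro y
  obtain ⟨x, rfl⟩ := hH y
  have h5 : eqComp (⟨φ₀, hφeq⟩ : eqHom N Y) π = ψ := by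
    apply Subtype.ext
    apply LinearMap.ext
    intro p
    exact hφ₀ p
  have h6 := theta_comp 𝒰 Y Λ (⟨φ₀, hφeq⟩ : eqHom N Y) π
  rw [h5, hψ] at h6
  exact (LinearMap.congr_fun h6 x).symm

/-- **Retract lemma** (additivity): if `id_P = ∑ incᵢ ∘ prjᵢ` and `theta` is bijective on every
`Pᵢ`, then it is bijective on `P`. -/
lemma theta_bijective_of_retracts {ι : Type} [Fintype ι] {P : Rep k G} (Q : ι → Rep k G)
    (inc : ∀ i, eqHom (Q i) P) (prj : ∀ i, eqHom P (Q i))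
    (hsum : ∀ p : P, ∑ i, (inc i).1 ((prj i).1 p) = p)
    (h : ∀ i, Function.Bijective (theta 𝒰 Y Λ (Q i))) :
    Function.Bijective (theta 𝒰 Y Λ P) := by
  have hid : ∑ i, eqComp (inc i) (prj i) = eqId P := by
    apply Subtype.ext
    apply LinearMap.ext
    intro p
    rw [Submodule.coe_sum, LinearMap.sum_apply]
    exact hsum p
  have hH : ∑ i, H2m 𝒰 (inc i) ∘ₗ H2m 𝒰 (prj i) = LinearMap.id := by
    rw [← H2m_id, ← hid, ← H2mL_apply, map_sum]
    refine Finset.sum_congr rfl fun i _ => ?_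
    rw [H2mL_apply, H2m_comp]
  constructor
  · rw [injective_iff_map_eq_zero]
    intro φ hφ
    have h1 : ∀ i, eqComp φ (inc i) = 0 := by
      intro i
      apply (injective_iff_map_eq_zero _).1 (h i).1
      rw [theta_comp, hφ, LinearMap.zero_comp]
    apply Subtype.ext
    apply LinearMap.ext
    intro p
    rw [← hsum p, map_sum]
    simp only [ZeroMemClass.coe_zero, LinearMap.zero_apply]
    refine Finset.sum_eq_zero fun i _ => ?_
    have := congrArg (fun χ : eqHom (Q i) Y => χ.1 ((prj i).1 p)) (h1 i)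
    simpa [eqComp] using this
  · intro t
    choose φ hφ using fun i => (h i).2 (t ∘ₗ H2m 𝒰 (inc i))
    refine ⟨∑ i, eqComp (φ i) (prj i), ?_⟩
    rw [map_sum]
    have : ∀ i, theta 𝒰 Y Λ P (eqComp (φ i) (prj i)) = t ∘ₗ (H2m 𝒰 (inc i) ∘ₗ H2m 𝒰 (prj i)) := by
      intro i
      rw [theta_comp, hφ i, LinearMap.comp_assoc]
    rw [Finset.sum_congr rfl fun i _ => this i]
    apply LinearMap.ext
    intro x
    rw [LinearMap.sum_apply]
    simp only [LinearMap.comp_apply]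
    rw [← map_sum]
    have hx := LinearMap.congr_fun hH x
    simp only [LinearMap.sum_apply, LinearMap.comp_apply, LinearMap.id_apply] at hx
    rw [hx]

end Fermat.Agent.S55.Dualizing59
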