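/-
S55 / 44-DUALIZING (helper59), part 3: permutation (co-induced) modules `W^(G/V)`, the canonical
cover of a module with trivial `V`-action, kernels of equivariant maps.
-/
import Fermat.Agent.S55.Dualizing59.Repr

set_option autoImplicit false

universe u

open CategoryTheory groupCohomology

namespace Fermat.Agent.S55.Dualizing59

open Fermat.Agent.S55.Profin15

variable {k : Type u} [Field k] {G : Type u} [Group G]

section coind

variable (V : Subgroup G) (W : Type u) [AddCommGroup W] [Module k W]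

/-- functions on `G ⧸ V` with values in `W`, `(g • f) x = f (g⁻¹ • x)` -/
def coindRep : Representation k G ((G ⧸ V) → W) where
  toFun g := LinearMap.funLeft k W (fun x : G ⧸ V => g⁻¹ • x)
  map_one' := by
    ext f x
    simp [LinearMap.funLeft_apply]
  map_mul' g h := by
    ext f x
    simp [LinearMap.funLeft_apply, mul_smul]

/-- the permutation module `W^(G/V)` -/
def coind : Rep k G := Rep.of (coindRep (k := k) V W)

variable {V W}

lemma coind_ρ_apply (g : G) (f : (G ⧸ V) → W) (x : G ⧸ V) :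
    (coind (k := k) V W).ρ g f x = f (g⁻¹ • x) := rfl

lemma smul_coset_eq_of_mem [V.Normal] {s : G} (hs : s ∈ V) (x : G ⧸ V) : s • x = x := by
  induction x using QuotientGroup.induction_on with
  | H g =>
    show ((s * g : G) : G ⧸ V) = g
    rw [QuotientGroup.eq]
    have : (s * g)⁻¹ * g = g⁻¹ * s⁻¹ * g := by group
    rw [this]
    exact Subgroup.Normal.conj_mem' ‹_› s⁻¹ (V.inv_mem hs) g

lemma coind_ρ_of_mem [V.Normal] {s : G} (hs : s ∈ V) (f : (G ⧸ V) → W) :
    (coind (k := k) V W).ρ s f = f := by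
  funext x
  rw [coind_ρ_apply, smul_coset_eq_of_mem (V.inv_mem hs)]

lemma coind_isSmooth (𝒰 : LevelStr G) (hV : V ∈ 𝒰.levels) : 𝒰.IsSmooth (coind (k := k) V W) := by
  intro f
  haveI := 𝒰.normal V hV
  exact ⟨V, hV, fun s hs => coind_ρ_of_mem hs f⟩

instance [Finite (G ⧸ V)] [Module.Finite k W] : Module.Finite k (coind (k := k) V W) :=
  inferInstanceAs (Module.Finite k ((G ⧸ V) → W))

end coind

section cover

variable (V : Subgroup G) [Fintype (G ⧸ V)] (N : Rep k G)

/-- the cover `N^(G/V) → N`, `f ↦ ∑ₓ x • f x` -/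
noncomputable def coverLin : ((G ⧸ V) → N) →ₗ[k] N :=
  ∑ x : G ⧸ V, (N.ρ (Quotient.out x)) ∘ₗ LinearMap.proj x

lemma coverLin_apply (f : (G ⧸ V) → N) :
    coverLin V N f = ∑ x : G ⧸ V, N.ρ (Quotient.out x) (f x) := by
  simp [coverLin, LinearMap.sum_apply]

variable {V N}

omit [Fintype (G ⧸ V)] in
lemma rho_eq_of_coset_eq (hN : ∀ s ∈ V, ∀ n : N, N.ρ s n = n) {a b : G}
    (hab : (a : G ⧸ V) = b) (n : N) : N.ρ a n = N.ρ b n := by
  have h1 : a⁻¹ * b ∈ V := QuotientGroup.eq.1 hab
  have h2 : b = a * (a⁻¹ * b) := by group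
  rw [h2, map_mul, Module.End.mul_apply, hN _ h1]

lemma coverLin_comp_smul (hN : ∀ s ∈ V, ∀ n : N, N.ρ s n = n) (g : G) (f : (G ⧸ V) → N) :
    coverLin V N (fun x => f (g⁻¹ • x)) = N.ρ g (coverLin V N f) := by
  rw [coverLin_apply, coverLin_apply, map_sum]
  refine Fintype.sum_equiv (MulAction.toPerm g⁻¹) _ _ fun x => ?_
  simp only [MulAction.toPerm_apply]
  rw [← Module.End.mul_apply, ← map_mul]
  refine rho_eq_of_coset_eq hN ?_ _
  rw [QuotientGroup.out_eq']
  have : ((g * Quotient.out (g⁻¹ • x) : G) : G ⧸ V) = g • ((Quotient.out (g⁻¹ • x) : G) : G ⧸ V) :=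
    rfl
  rw [this, QuotientGroup.out_eq', smul_inv_smul]

lemma coverLin_mem_eqHom (hN : ∀ s ∈ V, ∀ n : N, N.ρ s n = n) :
    coverLin V N ∈ eqHom (coind (k := k) V N) N := by
  intro g f
  exact coverLin_comp_smul hN g f

/-- the cover as an equivariant map -/
noncomputable def cover (hN : ∀ s ∈ V, ∀ n : N, N.ρ s n = n) : eqHom (coind (k := k) V N) N :=
  ⟨coverLin V N, coverLin_mem_eqHom hN⟩

lemma cover_surjective (hN : ∀ s ∈ V, ∀ n : N, N.ρ s n = n) :
    Function.Surjective (cover hN).1 := by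
  classical
  intro n
  refine ⟨Pi.single ((1 : G) : G ⧸ V) n, ?_⟩
  show coverLin V N _ = n
  rw [coverLin_apply, Finset.sum_eq_single ((1 : G) : G ⧸ V)]
  · rw [Pi.single_eq_same]
    have h1 : ((Quotient.out ((1 : G) : G ⧸ V) : G) : G ⧸ V) = ((1 : G) : G ⧸ V) :=
      QuotientGroup.out_eq' _
    rw [rho_eq_of_coset_eq hN h1, map_one, Module.End.one_apply]
  · intro x _ hx
    rw [Pi.single_eq_of_ne hx, map_zero]
  · intro h
    exact (h (Finset.mem_univ _)).elim

end cover

section kernel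

variable {P N : Rep k G} (π : eqHom P N)

/-- the kernel of an equivariant map, as a representation -/
def kerRep : Representation k G (LinearMap.ker π.1) where
  toFun g := (P.ρ g).restrict (p := LinearMap.ker π.1) (q := LinearMap.ker π.1) (fun p hp => by
    rw [LinearMap.mem_ker] at hp ⊢
    have := π.2 g p
    simp only [MonoidHom.id_apply] at this
    rw [this, hp, map_zero])
  map_one' := by
    ext p
    simp
  map_mul' g h := by
    ext p
    simp

/-- the kernel object -/
def kerObj : Rep k G := Rep.of (kerRep π)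

lemma kerObj_ρ_coe (g : G) (κ : LinearMap.ker π.1) :
    ((kerRep π g κ : LinearMap.ker π.1) : P) = P.ρ g κ.1 := rfl

/-- inclusion of the kernel -/
def kerIncl : eqHom (kerObj π) P :=
  ⟨(LinearMap.ker π.1).subtype, fun _ _ => rfl⟩

lemma kerIncl_apply (κ : kerObj π) : (kerIncl π).1 κ = (κ : LinearMap.ker π.1).1 := rfl

lemma pi_kerIncl (κ : kerObj π) : π.1 ((kerIncl π).1 κ) = 0 :=
  LinearMap.mem_ker.1 (κ : LinearMap.ker π.1).2

lemma exists_kerIncl_eq (p : P) (hp : π.1 p = 0) : ∃ κ : kerObj π, (kerIncl π).1 κ = p :=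
  ⟨(⟨p, LinearMap.mem_ker.2 hp⟩ : LinearMap.ker π.1), rfl⟩

lemma kerObj_isSmooth (𝒰 : LevelStr G) (hP : 𝒰.IsSmooth P) : 𝒰.IsSmooth (kerObj π) := by
  intro κ
  obtain ⟨U, hU, h⟩ := hP (κ : LinearMap.ker π.1).1
  refine ⟨U, hU, fun s hs => ?_⟩
  apply Subtype.ext
  exact h s hs

instance [Module.Finite k P] : Module.Finite k (kerObj π) :=
  inferInstanceAs (Module.Finite k (LinearMap.ker π.1))

end kernel

end Fermat.Agent.S55.Dualizing59
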