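/-
S55 / 44-DUALIZING (helper59), part 4: the representability theorem.

`theta_bijective` : if `H²` of the level structure sends surjections of smooth finite-dimensional
modules to surjections (`RightExactH2`, i.e. `cd ≤ 2`) and `theta 𝒰 Y Λ` is bijective on the
permutation modules `k^(G/V)` for a cofinal family of levels `V`, then
`theta 𝒰 Y Λ N : Hom_G(N, Y) → H²(N)^*` is bijective for every smooth finite-dimensional `N`.
-/
import Fermat.Agent.S55.Dualizing59.Perm

set_option autoImplicit false
set_option linter.style.haveILetI false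

universe u

open CategoryTheory groupCohomology

namespace Fermat.Agent.S55.Dualizing59

open Fermat.Agent.S55.Profin15

variable {k : Type u} [Field k] {G : Type u} [Group G] (𝒰 : LevelStr G)

/-- Right exactness of `H²` in the weakest form we need (`cd ≤ 2`): surjections of smooth
finite-dimensional modules induce surjections on `H²`. -/
def RightExactH2 (k : Type u) [Field k] {G : Type u} [Group G] (𝒰 : LevelStr G) : Prop :=
  ∀ (P N : Rep k G), Module.Finite k P → Module.Finite k N → 𝒰.IsSmooth P → 𝒰.IsSmooth N →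
    ∀ π : eqHom P N, Function.Surjective π.1 → Function.Surjective (H2m 𝒰 π)

variable {𝒰}

/-- a smooth finite-dimensional module is fixed by a level -/
lemma exists_level_trivial (N : Rep k G) [Module.Finite k N] (hN : 𝒰.IsSmooth N) :
    ∃ U ∈ 𝒰.levels, ∀ s ∈ U, ∀ n : N, N.ρ s n = n := by
  obtain ⟨S, hS⟩ : (⊤ : Submodule k N).FG := Module.finite_def.1 inferInstance
  obtain ⟨U, hU, h⟩ := hN.exists_level_of_finite S.finite_toSet
  refine ⟨U, hU, fun s hs n => ?_⟩
  have hle : (⊤ : Submodule k N) ≤ LinearMap.eqLocus (N.ρ s) LinearMap.id := by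
    rw [← hS, Submodule.span_le]
    intro m hm
    exact h m hm s hs
  exact hle (Submodule.mem_top (x := n))

variable (𝒰) (Y : Rep k G) (Λ : 𝒰.H2 Y →ₗ[k] k)

section additivity

variable {V : Subgroup G} (W : Type u) [AddCommGroup W] [Module k W]

/-- post-composition with a linear map, as an equivariant map of permutation modules -/
def coindMap {W W' : Type u} [AddCommGroup W] [Module k W] [AddCommGroup W'] [Module k W']
    (φ : W →ₗ[k] W') : eqHom (coind (k := k) V W) (coind (k := k) V W') :=
  ⟨φ.compLeft (G ⧸ V), fun _ _ => rfl⟩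

lemma coindMap_apply {W W' : Type u} [AddCommGroup W] [Module k W] [AddCommGroup W'] [Module k W']
    (φ : W →ₗ[k] W') (f : (G ⧸ V) → W) (x : G ⧸ V) :
    (coindMap (V := V) φ).1 f x = φ (f x) := rfl

omit [Group G] in
lemma sum_compLeft_basis {I : Type u} {n : ℕ} (b : Module.Basis (Fin n) k W) (F : I → W) :
    ∑ i, ((LinearMap.toSpanSingleton k W (b i)).compLeft I) (((b.coord i).compLeft I) F) = F := by
  funext x
  rw [Finset.sum_apply]
  simp only [LinearMap.compLeft_apply, Function.comp_apply, LinearMap.toSpanSingleton_apply,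
    Module.Basis.coord_apply]
  exact b.sum_repr (F x)

/-- `theta` bijective on `k^(G/V)` implies bijective on `W^(G/V)` for finite-dimensional `W`. -/
lemma theta_bijective_coind [Module.Finite k W]
    (hV : Function.Bijective (theta 𝒰 Y Λ (coind (k := k) V k))) :
    Function.Bijective (theta 𝒰 Y Λ (coind (k := k) V W)) := by
  classical
  let b := Module.finBasis k W
  refine theta_bijective_of_retracts 𝒰 Y Λ (ι := Fin (Module.finrank k W))
    (fun _ => coind (k := k) V k)
    (fun i => coindMap (V := V) (LinearMap.toSpanSingleton k W (b i)))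
    (fun i => coindMap (V := V) (b.coord i)) ?_ (fun _ => hV)
  intro F
  exact sum_compLeft_basis W b F

end additivity

/-- injectivity half of the representability theorem (no exactness needed) -/
theorem theta_injective
    (hbase : ∀ U ∈ 𝒰.levels, ∃ V ∈ 𝒰.levels, V ≤ U ∧
      Function.Bijective (theta 𝒰 Y Λ (coind (k := k) V k)))
    (N : Rep k G) [Module.Finite k N] (hN : 𝒰.IsSmooth N) :
    Function.Injective (theta 𝒰 Y Λ N) := by
  obtain ⟨U, hU, htriv⟩ := exists_level_trivial N hN
  obtain ⟨V, hV, hVU, hgood⟩ := hbase U hU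
  haveI := 𝒰.finiteIndex V hV
  haveI : Finite (G ⧸ V) := Subgroup.finite_quotient_of_finiteIndex
  letI := Fintype.ofFinite (G ⧸ V)
  have htriv' : ∀ s ∈ V, ∀ n : N, N.ρ s n = n := fun s hs n => htriv s (hVU hs) n
  exact theta_injective_of_surjective 𝒰 Y Λ (cover htriv') (cover_surjective htriv')
    (theta_bijective_coind 𝒰 Y Λ N hgood).1

/-- **Representability theorem.** -/
theorem theta_bijective (hRS : RightExactH2 k 𝒰)
    (hbase : ∀ U ∈ 𝒰.levels, ∃ V ∈ 𝒰.levels, V ≤ U ∧
      Function.Bijective (theta 𝒰 Y Λ (coind (k := k) V k)))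
    (N : Rep k G) [Module.Finite k N] (hN : 𝒰.IsSmooth N) :
    Function.Bijective (theta 𝒰 Y Λ N) := by
  refine ⟨theta_injective 𝒰 Y Λ hbase N hN, ?_⟩
  obtain ⟨U, hU, htriv⟩ := exists_level_trivial N hN
  obtain ⟨V, hV, hVU, hgood⟩ := hbase U hU
  haveI := 𝒰.finiteIndex V hV
  haveI : Finite (G ⧸ V) := Subgroup.finite_quotient_of_finiteIndex
  letI := Fintype.ofFinite (G ⧸ V)
  have htriv' : ∀ s ∈ V, ∀ n : N, N.ρ s n = n := fun s hs n => htriv s (hVU hs) n
  have hPsm : 𝒰.IsSmooth (coind (k := k) V N) := coind_isSmooth 𝒰 hV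
  have hKsm : 𝒰.IsSmooth (kerObj (cover htriv')) := kerObj_isSmooth _ 𝒰 hPsm
  exact theta_surjective_of_cover 𝒰 Y Λ (cover htriv') (cover_surjective htriv')
    (kerIncl (cover htriv')) (exists_kerIncl_eq _) (pi_kerIncl _)
    (theta_bijective_coind 𝒰 Y Λ N hgood).2
    (theta_injective 𝒰 Y Λ hbase _ hKsm)
    (hRS _ _ inferInstance inferInstance hPsm hN _ (cover_surjective htriv'))

end Fermat.Agent.S55.Dualizing59
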