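/-
S55 / 44-DUALIZING (helper59), part 5: the module `J = ∏_v Ind_{G_v}^G μ` (smooth induction),
the diagonal `μ → J`, the evaluations `ev_v : J → μ`, cokernels of equivariant maps and
`Y = J / μ`.
-/
import Fermat.Agent.S55.Dualizing59.Main

set_option autoImplicit false
set_option linter.style.haveILetI false

universe u

open CategoryTheory groupCohomology

namespace Fermat.Agent.S55.Dualizing59

open Fermat.Agent.S55.Profin15

variable {k : Type u} [Field k] {G : Type u} [Group G]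

/-! ### cokernels -/

section coker

variable {A B : Rep.{u} k G} (i : eqHom A B)

lemma range_le_comap_range (g : G) :
    LinearMap.range i.1 ≤ (LinearMap.range i.1).comap (B.ρ g) := by
  rintro _ ⟨a, rfl⟩
  refine ⟨A.ρ g a, ?_⟩
  have := i.2 g a
  simpa only [MonoidHom.id_apply] using this

/-- the cokernel of an equivariant map, as a representation -/
def cokerRep : Representation k G (B ⧸ LinearMap.range i.1) where
  toFun g := Submodule.mapQ _ _ (B.ρ g) (range_le_comap_range i g)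
  map_one' := by
    apply LinearMap.ext
    intro x
    obtain ⟨b, rfl⟩ := Submodule.mkQ_surjective _ x
    simp
  map_mul' g h := by
    apply LinearMap.ext
    intro x
    obtain ⟨b, rfl⟩ := Submodule.mkQ_surjective _ x
    simp

/-- the cokernel object -/
def cokerObj : Rep k G := Rep.of (cokerRep i)

/-- projection to the cokernel -/
def cokerProj : eqHom B (cokerObj i) :=
  ⟨(LinearMap.range i.1).mkQ, fun _ _ => rfl⟩

lemma cokerProj_surjective : Function.Surjective (cokerProj i).1 :=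
  Submodule.mkQ_surjective _

lemma cokerProj_apply_eq_zero_iff (b : B) : (cokerProj i).1 b = 0 ↔ ∃ a, i.1 a = b := by
  show (LinearMap.range i.1).mkQ b = 0 ↔ _
  rw [Submodule.mkQ_apply, Submodule.Quotient.mk_eq_zero, LinearMap.mem_range]

lemma cokerProj_comp (a : A) : (cokerProj i).1 (i.1 a) = 0 :=
  (cokerProj_apply_eq_zero_iff i _).2 ⟨a, rfl⟩

lemma cokerObj_isSmooth (𝒰 : LevelStr G) (hB : 𝒰.IsSmooth B) : 𝒰.IsSmooth (cokerObj i) := by
  intro y
  obtain ⟨b, rfl⟩ := Submodule.mkQ_surjective (LinearMap.range i.1) y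
  obtain ⟨U, hU, h⟩ := hB b
  refine ⟨U, hU, fun s hs => ?_⟩
  show (Submodule.Quotient.mk (B.ρ s b) : B ⧸ LinearMap.range i.1) = Submodule.Quotient.mk b
  rw [h s hs]

end coker

/-! ### the induced module `J` -/

section J

variable (𝒰 : LevelStr G) {ι : Type} [Finite ι] {Gv : ι → Type u} [∀ v, Group (Gv v)]
  (r : ∀ v, Gv v →* G) (μ : Rep.{u} k G)

/-- `J = ∏_v Ind_v μ`: families of level-constant functions `F v : G → μ` with
`F v (x * r v d) = (r v d)⁻¹ • F v x`. -/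
def JSub : Submodule k (ι → G → μ) where
  carrier := {F | ∀ v, (∀ (x : G) (d : Gv v), F v (x * r v d) = μ.ρ (r v d)⁻¹ (F v x)) ∧
    𝒰.IsConst₁ (F v)}
  add_mem' := by
    intro F F' hF hF' v
    refine ⟨fun x d => ?_, (hF v).2.add (hF' v).2⟩
    show F v (x * r v d) + F' v (x * r v d) = μ.ρ (r v d)⁻¹ (F v x + F' v x)
    rw [(hF v).1, (hF' v).1, map_add]
  zero_mem' := by
    intro v
    refine ⟨fun x d => ?_, LevelStr.isConst₁_const (0 : μ)⟩
    simp
  smul_mem' := by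
    intro c F hF v
    refine ⟨fun x d => ?_, (hF v).2.comp (c • ·)⟩
    show c • F v (x * r v d) = μ.ρ (r v d)⁻¹ (c • F v x)
    rw [(hF v).1, map_smul]

variable {𝒰 r μ}

lemma JSub_left_translate {F : ι → G → μ} (hF : F ∈ JSub 𝒰 r μ) (g : G) :
    (fun v x => F v (g⁻¹ * x)) ∈ JSub 𝒰 r μ := by
  intro v
  refine ⟨fun x d => ?_, ?_⟩
  · show F v (g⁻¹ * (x * r v d)) = μ.ρ (r v d)⁻¹ (F v (g⁻¹ * x))
    rw [← mul_assoc, (hF v).1]
  · obtain ⟨U, hU, h⟩ := (hF v).2
    refine ⟨U, hU, fun x s hs => ?_⟩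
    show F v (g⁻¹ * (x * s)) = F v (g⁻¹ * x)
    rw [← mul_assoc, h _ s hs]

variable (𝒰 r μ)

/-- `G` acts on `J` by left translation -/
def JRep : Representation k G (JSub 𝒰 r μ) where
  toFun g :=
    { toFun := fun F => ⟨fun v x => F.1 v (g⁻¹ * x), JSub_left_translate F.2 g⟩
      map_add' := fun _ _ => rfl
      map_smul' := fun _ _ => rfl }
  map_one' := by
    apply LinearMap.ext
    intro F
    apply Subtype.ext
    funext v x
    simp
  map_mul' g h := by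
    apply LinearMap.ext
    intro F
    apply Subtype.ext
    funext v x
    simp [mul_assoc]

/-- the induced module -/
def JObj : Rep k G := Rep.of (JRep 𝒰 r μ)

variable {𝒰 r μ}

lemma JObj_ρ_apply (g : G) (F : JSub 𝒰 r μ) (v : ι) (x : G) :
    ((JRep 𝒰 r μ g F : JSub 𝒰 r μ) : ι → G → μ) v x = F.1 v (g⁻¹ * x) := rfl

/-- finitely many level-constant functions are constant modulo a common level -/
lemma exists_common_level {X : Type*} (F : ι → G → X) (hF : ∀ v, 𝒰.IsConst₁ (F v)) :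
    ∃ U ∈ 𝒰.levels, ∀ v x s, s ∈ U → F v (x * s) = F v x := by
  classical
  haveI := Fintype.ofFinite ι
  have key : ∀ T : Finset ι, ∃ U ∈ 𝒰.levels, ∀ v ∈ T, ∀ x s, s ∈ U → F v (x * s) = F v x := by
    intro T
    induction T using Finset.induction_on with
    | empty =>
      obtain ⟨U, hU⟩ := 𝒰.nonempty
      exact ⟨U, hU, fun v hv => (Finset.notMem_empty v hv).elim⟩
    | insert a T _ ih =>
      obtain ⟨U, hU, h⟩ := ih
      obtain ⟨W, hW, hle, hc⟩ := (hF a).exists_le hU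
      refine ⟨W, hW, fun v hv x s hs => ?_⟩
      rcases Finset.mem_insert.1 hv with rfl | hv
      · exact hc x s hs
      · exact h v hv x s (hle hs)
  obtain ⟨U, hU, h⟩ := key Finset.univ
  exact ⟨U, hU, fun v => h v (Finset.mem_univ v)⟩

lemma JObj_isSmooth : 𝒰.IsSmooth (JObj 𝒰 r μ) := by
  intro F
  obtain ⟨U, hU, h⟩ := exists_common_level (fun v => (F : JSub 𝒰 r μ).1 v)
    (fun v => ((F : JSub 𝒰 r μ).2 v).2)
  haveI := 𝒰.normal U hU
  refine ⟨U, hU, fun s hs => ?_⟩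
  apply Subtype.ext
  funext v x
  show (F : JSub 𝒰 r μ).1 v (s⁻¹ * x) = (F : JSub 𝒰 r μ).1 v x
  have : s⁻¹ * x = x * (x⁻¹ * s⁻¹ * x) := by group
  rw [this]
  exact h v x _ (Subgroup.Normal.conj_mem' ‹_› s⁻¹ (U.inv_mem hs) x)

/-- evaluation at `1` of the `v`-th component -/
def evLin (v : ι) : JSub 𝒰 r μ →ₗ[k] μ where
  toFun F := F.1 v 1
  map_add' _ _ := rfl
  map_smul' _ _ := rfl

lemma evLin_apply (v : ι) (F : JSub 𝒰 r μ) : evLin (𝒰 := 𝒰) (r := r) (μ := μ) v F = F.1 v 1 := rfl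

/-- `ev_v` is equivariant along `r v : G_v → G`. -/
lemma evLin_isEquivariant (v : ι) :
    IsEquivariant (r v) (JObj 𝒰 r μ) (Rep.res (r v) μ) (evLin v) := by
  intro d F
  show (F : JSub 𝒰 r μ).1 v ((r v d)⁻¹ * 1) = μ.ρ (r v d) ((F : JSub 𝒰 r μ).1 v 1)
  have h := ((F : JSub 𝒰 r μ).2 v).1 1 d⁻¹
  rw [map_inv, inv_inv] at h
  rw [mul_one, ← one_mul (r v d)⁻¹, h]

/-- the value at `x` is the value at `1` of the translate -/
lemma J_apply_eq_ev (F : JSub 𝒰 r μ) (v : ι) (x : G) :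
    F.1 v x = evLin (𝒰 := 𝒰) (r := r) (μ := μ) v (JRep 𝒰 r μ x⁻¹ F) := by
  show F.1 v x = F.1 v (x⁻¹⁻¹ * 1)
  rw [inv_inv, mul_one]

variable (hμ : ∃ U ∈ 𝒰.levels, ∀ s ∈ U, ∀ m : μ, μ.ρ s m = m)

include hμ in
lemma diag_mem (m : μ) : (fun (_ : ι) (x : G) => μ.ρ x⁻¹ m) ∈ JSub 𝒰 r μ := by
  intro v
  refine ⟨fun x d => ?_, ?_⟩
  · show μ.ρ (x * r v d)⁻¹ m = μ.ρ (r v d)⁻¹ (μ.ρ x⁻¹ m)
    rw [mul_inv_rev, map_mul, Module.End.mul_apply]
  · obtain ⟨U, hU, h⟩ := hμ
    refine ⟨U, hU, fun x s hs => ?_⟩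
    show μ.ρ (x * s)⁻¹ m = μ.ρ x⁻¹ m
    rw [mul_inv_rev, map_mul, Module.End.mul_apply, h _ (U.inv_mem hs)]

/-- the diagonal embedding `μ → J` -/
def diagLin : μ →ₗ[k] JSub 𝒰 r μ where
  toFun m := ⟨fun _ x => μ.ρ x⁻¹ m, diag_mem hμ m⟩
  map_add' m m' := by
    apply Subtype.ext
    funext v x
    exact map_add (μ.ρ x⁻¹) m m'
  map_smul' c m := by
    apply Subtype.ext
    funext v x
    exact map_smul (μ.ρ x⁻¹) c m

lemma diagLin_apply (m : μ) (v : ι) (x : G) :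
    (diagLin (r := r) hμ m).1 v x = μ.ρ x⁻¹ m := rfl

/-- the diagonal as an equivariant map -/
def diag : eqHom μ (JObj 𝒰 r μ) :=
  ⟨diagLin hμ, fun g m => by
    apply Subtype.ext
    funext v x
    show μ.ρ x⁻¹ (μ.ρ g m) = μ.ρ (g⁻¹ * x)⁻¹ m
    rw [mul_inv_rev, inv_inv, map_mul, Module.End.mul_apply]⟩

lemma evLin_diag (v : ι) (m : μ) : evLin v ((diag (r := r) hμ).1 m) = m := by
  show μ.ρ (1 : G)⁻¹ m = m
  simp

lemma diag_injective [Nonempty ι] : Function.Injective (diag (r := r) hμ).1 := by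
  intro m m' h
  obtain ⟨v⟩ := ‹Nonempty ι›
  have := congrArg (evLin (𝒰 := 𝒰) (r := r) (μ := μ) v) h
  rwa [evLin_diag, evLin_diag] at this

/-- `Y = J / μ` -/
def YObj : Rep k G := cokerObj (diag (r := r) hμ)

/-- the projection `J → Y` -/
def qY : eqHom (JObj 𝒰 r μ) (YObj (r := r) hμ) := cokerProj (diag (r := r) hμ)

lemma YObj_isSmooth : 𝒰.IsSmooth (YObj (r := r) hμ) :=
  cokerObj_isSmooth _ 𝒰 JObj_isSmooth

end J

end Fermat.Agent.S55.Dualizing59
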