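/-
S55 / 44-DUALIZING (helper59), part 2b: localisation maps, abstract `Sha¹`/`Sha²`, Frobenius
reciprocity `∏_v Hom_{G_v}(M, μ) → Hom_G(M, J) → Hom_G(M, Y)`, and the functoriality lemmas
for `H2map` needed in the count.
-/
import Fermat.Agent.S55.Dualizing59.Ind

set_option autoImplicit false

universe u

open CategoryTheory groupCohomology

namespace Fermat.Agent.S55.Dualizing59

open Fermat.Agent.S55.Profin15

variable {k : Type u} [Field k] {G : Type u} [Group G]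

/-! ### functoriality of `H2map` -/

section functoriality

variable {H : Type u} [Group H] {𝒰 : LevelStr G} {𝒱 : LevelStr H} {f : H →* G}
  (hf : IsCont 𝒱 𝒰 f)

/-- the identity is equivariant from `M` to its restriction -/
lemma isEquivariant_res_id (f : H →* G) (M : Rep.{u} k G) :
    IsEquivariant f M (Rep.res f M) LinearMap.id := fun _ _ => rfl

lemma IsEquivariant.comp_eqHom {A A' : Rep.{u} k G} {B : Rep.{u} k H} {φ : A' →ₗ[k] B}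
    (hφ : IsEquivariant f A' B φ) (ψ : eqHom A A') : IsEquivariant f A B (φ ∘ₗ ψ.1) := by
  intro g a
  have h := ψ.2 (f g) a
  simp only [MonoidHom.id_apply] at h
  simp only [LinearMap.comp_apply, h, hφ g]

lemma IsEquivariant.eqHom_comp {A : Rep.{u} k G} {B B' : Rep.{u} k H} {φ : A →ₗ[k] B}
    (hφ : IsEquivariant f A B φ) (ψ : eqHom B B') : IsEquivariant f A B' (ψ.1 ∘ₗ φ) := by
  intro g a
  have h := ψ.2 g (φ a)
  simp only [MonoidHom.id_apply] at h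
  simp only [LinearMap.comp_apply, hφ g, h]

lemma H2map_H2m {A A' : Rep.{u} k G} {B : Rep.{u} k H} {φ : A' →ₗ[k] B}
    (hφ : IsEquivariant f A' B φ) (ψ : eqHom A A') (z : 𝒰.H2 A) :
    H2map hf hφ (H2m 𝒰 ψ z) = H2map hf (hφ.comp_eqHom ψ) z := by
  obtain ⟨c, rfl⟩ := Submodule.Quotient.mk_surjective _ z
  rfl

lemma H2m_H2map {A : Rep.{u} k G} {B B' : Rep.{u} k H} {φ : A →ₗ[k] B}
    (hφ : IsEquivariant f A B φ) (ψ : eqHom B B') (z : 𝒰.H2 A) :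
    H2m 𝒱 ψ (H2map hf hφ z) = H2map hf (hφ.eqHom_comp ψ) z := by
  obtain ⟨c, rfl⟩ := Submodule.Quotient.mk_surjective _ z
  rfl

lemma H2map_congr {A : Rep.{u} k G} {B : Rep.{u} k H} {φ φ' : A →ₗ[k] B}
    (hφ : IsEquivariant f A B φ) (hφ' : IsEquivariant f A B φ') (h : φ = φ') (z : 𝒰.H2 A) :
    H2map hf hφ z = H2map hf hφ' z := by
  subst h
  rfl

end functoriality

/-! ### localisation maps and `Sha` -/

section loc

variable {𝒰 : LevelStr G} {ι : Type} {Gv : ι → Type u} [∀ v, Group (Gv v)]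
  {r : ∀ v, Gv v →* G} {𝒰v : ∀ v, LevelStr (Gv v)} (hr : ∀ v, IsCont (𝒰v v) 𝒰 (r v))

/-- localisation `H¹(G, M) → H¹(G_v, M)` -/
def loc₁ (v : ι) (M : Rep.{u} k G) : 𝒰.H1 M →ₗ[k] (𝒰v v).H1 (Rep.res (r v) M) :=
  H1map (hr v) (isEquivariant_res_id (r v) M)

/-- localisation `H²(G, M) → H²(G_v, M)` -/
def loc₂ (v : ι) (M : Rep.{u} k G) : 𝒰.H2 M →ₗ[k] (𝒰v v).H2 (Rep.res (r v) M) :=
  H2map (hr v) (isEquivariant_res_id (r v) M)

/-- `Sha¹ = ker (H¹(G, M) → ∏_v H¹(G_v, M))` -/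
def Sha1 (M : Rep.{u} k G) : Submodule k (𝒰.H1 M) := ⨅ v, LinearMap.ker (loc₁ hr v M)

/-- `Sha² = ker (H²(G, M) → ∏_v H²(G_v, M))` -/
def Sha2 (M : Rep.{u} k G) : Submodule k (𝒰.H2 M) := ⨅ v, LinearMap.ker (loc₂ hr v M)

lemma mem_Sha1_iff (M : Rep.{u} k G) (x : 𝒰.H1 M) :
    x ∈ Sha1 hr M ↔ ∀ v, loc₁ hr v M x = 0 := by
  simp [Sha1, Submodule.mem_iInf]

lemma mem_Sha2_iff (M : Rep.{u} k G) (x : 𝒰.H2 M) :
    x ∈ Sha2 hr M ↔ ∀ v, loc₂ hr v M x = 0 := by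
  simp [Sha2, Submodule.mem_iInf]

/-- a level cocycle class is in `Sha¹` iff it restricts to a coboundary on every `G_v` -/
lemma H1π_mem_Sha1_iff (M : Rep.{u} k G) (c : ↥(𝒰.Z₁ M)) :
    𝒰.H1π M c ∈ Sha1 hr M ↔
      ∀ v, ∃ m : M, ∀ d : Gv v, (c : G → M) (r v d) = M.ρ (r v d) m - m := by
  rw [mem_Sha1_iff]
  refine forall_congr' fun v => ?_
  show (𝒰v v).H1π _ (Z₁map (hr v) (isEquivariant_res_id (r v) M) c) = 0 ↔ _
  rw [LevelStr.H1π_eq_zero_iff]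
  constructor
  · rintro ⟨m, hm⟩
    refine ⟨m, fun d => ?_⟩
    have := congr_fun hm d
    rw [d₀₁_hom_apply] at this
    exact this.symm
  · rintro ⟨m, hm⟩
    refine ⟨m, ?_⟩
    funext d
    rw [d₀₁_hom_apply]
    exact (hm d).symm

end loc

/-! ### Frobenius reciprocity -/

section frob

variable {𝒰 : LevelStr G} {ι : Type} [Finite ι] {Gv : ι → Type u} [∀ v, Group (Gv v)]
  {r : ∀ v, Gv v →* G} {μ : Rep.{u} k G}

/-- the local Hom spaces `∏_v Hom_{G_v}(M, μ)` -/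
abbrev LocHom (r : ∀ v, Gv v →* G) (M μ : Rep.{u} k G) : Type u :=
  ∀ v, eqHom (Rep.res (r v) M) (Rep.res (r v) μ)

lemma locHom_apply {M : Rep.{u} k G} (ψ : LocHom r M μ) (v : ι) (d : Gv v) (m : M) :
    (ψ v).1 (M.ρ (r v d) m) = μ.ρ (r v d) ((ψ v).1 m) := (ψ v).2 d m

lemma frob_mem {M : Rep.{u} k G} (hM : 𝒰.IsSmooth M) (ψ : LocHom r M μ) (m : M) :
    (fun (v : ι) (x : G) => (ψ v).1 (M.ρ x⁻¹ m)) ∈ JSub 𝒰 r μ := by
  intro v
  refine ⟨fun x d => ?_, ?_⟩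
  · show (ψ v).1 (M.ρ (x * r v d)⁻¹ m) = μ.ρ (r v d)⁻¹ ((ψ v).1 (M.ρ x⁻¹ m))
    rw [mul_inv_rev, map_mul, Module.End.mul_apply, ← map_inv, locHom_apply]
  · obtain ⟨U, hU, hfix⟩ := hM m
    haveI := 𝒰.normal U hU
    refine ⟨U, hU, fun x s hs => ?_⟩
    show (ψ v).1 (M.ρ (x * s)⁻¹ m) = (ψ v).1 (M.ρ x⁻¹ m)
    have h1 : (x * s)⁻¹ = x⁻¹ * (x * s⁻¹ * x⁻¹) := by group
    rw [h1, map_mul, Module.End.mul_apply,
      hfix _ (Subgroup.Normal.conj_mem ‹_› s⁻¹ (U.inv_mem hs) x)]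

/-- Frobenius reciprocity: `∏_v Hom_{G_v}(M, μ) → Hom_G(M, J)`, `ψ ↦ (m ↦ (v, x) ↦ ψ_v (x⁻¹ m))` -/
def frob {M : Rep.{u} k G} (hM : 𝒰.IsSmooth M) : LocHom r M μ →ₗ[k] eqHom M (JObj 𝒰 r μ) where
  toFun ψ :=
    ⟨{ toFun := fun m => ⟨fun v x => (ψ v).1 (M.ρ x⁻¹ m), frob_mem hM ψ m⟩
       map_add' := fun m m' => by
        apply Subtype.ext
        funext v x
        show (ψ v).1 (M.ρ x⁻¹ (m + m')) = (ψ v).1 (M.ρ x⁻¹ m) + (ψ v).1 (M.ρ x⁻¹ m')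
        rw [map_add, map_add]
       map_smul' := fun c m => by
        apply Subtype.ext
        funext v x
        show (ψ v).1 (M.ρ x⁻¹ (c • m)) = c • (ψ v).1 (M.ρ x⁻¹ m)
        rw [map_smul, map_smul] },
     fun g m => by
      apply Subtype.ext
      funext v x
      show (ψ v).1 (M.ρ x⁻¹ (M.ρ g m)) = (ψ v).1 (M.ρ (g⁻¹ * x)⁻¹ m)
      rw [mul_inv_rev, inv_inv, map_mul, Module.End.mul_apply]⟩
  map_add' ψ ψ' := rfl
  map_smul' c ψ := rfl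

lemma frob_apply {M : Rep.{u} k G} (hM : 𝒰.IsSmooth M) (ψ : LocHom r M μ) (m : M) (v : ι)
    (x : G) : ((frob hM ψ).1 m : JSub 𝒰 r μ).1 v x = (ψ v).1 (M.ρ x⁻¹ m) := rfl

lemma evLin_frob {M : Rep.{u} k G} (hM : 𝒰.IsSmooth M) (ψ : LocHom r M μ) (v : ι) (m : M) :
    evLin v ((frob (𝒰 := 𝒰) hM ψ).1 m) = (ψ v).1 m := by
  show (ψ v).1 (M.ρ (1 : G)⁻¹ m) = (ψ v).1 m
  simp

/-- an equivariant map `Ψ : M → J` is `frob` of its components `ev_v ∘ Ψ` -/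
lemma eq_frob {M : Rep.{u} k G} (hM : 𝒰.IsSmooth M) (Ψ : eqHom M (JObj 𝒰 r μ)) :
    ∃ ψ : LocHom r M μ, (∀ v (m : M), (ψ v).1 m = evLin v (Ψ.1 m)) ∧ frob hM ψ = Ψ := by
  refine ⟨fun v => ⟨(evLin (𝒰 := 𝒰) (r := r) (μ := μ) v ∘ₗ Ψ.1 : M →ₗ[k] μ), fun d m => ?_⟩,
    fun v m => rfl, ?_⟩
  · have h := Ψ.2 (r v d) m
    simp only [MonoidHom.id_apply] at h
    show evLin v (Ψ.1 (M.ρ (r v d) m)) = μ.ρ (r v d) (evLin v (Ψ.1 m))
    rw [h]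
    exact evLin_isEquivariant v d (Ψ.1 m)
  · apply Subtype.ext
    apply LinearMap.ext
    intro m
    apply Subtype.ext
    funext v x
    show evLin v (Ψ.1 (M.ρ x⁻¹ m)) = (Ψ.1 m : JSub 𝒰 r μ).1 v x
    have h := Ψ.2 x⁻¹ m
    simp only [MonoidHom.id_apply] at h
    rw [h]
    exact (J_apply_eq_ev (Ψ.1 m) v x).symm

/-- post-composition with an equivariant map, as a linear map -/
def eqCompL {A B C : Rep.{u} k G} (ψ : eqHom B C) : eqHom A B →ₗ[k] eqHom A C where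
  toFun φ := eqComp ψ φ
  map_add' φ φ' := by
    apply Subtype.ext
    exact LinearMap.comp_add _ _ _
  map_smul' c φ := by
    apply Subtype.ext
    exact LinearMap.comp_smul _ _ _

@[simp] lemma eqCompL_apply {A B C : Rep.{u} k G} (ψ : eqHom B C) (φ : eqHom A B) :
    eqCompL ψ φ = eqComp ψ φ := rfl

variable (hμ : ∃ U ∈ 𝒰.levels, ∀ s ∈ U, ∀ m : μ, μ.ρ s m = m)

/-- `α : ∏_v Hom_{G_v}(M, μ) → Hom_G(M, Y)` -/
def alpha {M : Rep.{u} k G} (hM : 𝒰.IsSmooth M) :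
    LocHom r M μ →ₗ[k] eqHom M (YObj (r := r) hμ) :=
  eqCompL (qY (r := r) hμ) ∘ₗ frob hM

lemma alpha_apply {M : Rep.{u} k G} (hM : 𝒰.IsSmooth M) (ψ : LocHom r M μ) :
    alpha hμ hM ψ = eqComp (qY (r := r) hμ) (frob hM ψ) := rfl

end frob

end Fermat.Agent.S55.Dualizing59
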