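/-
S55 / 44-DUALIZING (helper59), part 2c: the trace `Λ : H²(Y) → k`.

`0 → μ → J → Y → 0`; on `H²(J)` we have the sum of the local invariants of the components
`invJ = ∑_v inv_v ∘ H²(ev_v)`.  By reciprocity it kills the image of `H²(μ)`; as
`H²(J) → H²(Y)` is surjective (plug: `cd ≤ 2`), it descends to `Λ : H²(Y) → k`.
-/
import Fermat.Agent.S55.Dualizing59.Loc
import Fermat.Agent.S55.Profin15.LES1

set_option autoImplicit false

universe u

open CategoryTheory groupCohomology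

namespace Fermat.Agent.S55.Dualizing59

open Fermat.Agent.S55.Profin15

variable {k : Type u} [Field k] {G : Type u} [Group G]

/-- comparison of `H2m` with `Profin15`'s `H2map` -/
lemma H2m_eq_H2map (𝒰 : LevelStr G) {A B : Rep.{u} k G} (φ : eqHom A B)
    (hφ : LevelStr.IsEquivariant φ.1) (z : 𝒰.H2 A) : H2m 𝒰 φ z = 𝒰.H2map φ.1 hφ z := by
  obtain ⟨c, rfl⟩ := Submodule.Quotient.mk_surjective _ z
  rfl

lemma eqHom_isEquivariant {A B : Rep.{u} k G} (φ : eqHom A B) :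
    LevelStr.IsEquivariant φ.1 := fun g a => φ.2 g a

variable {𝒰 : LevelStr G} {ι : Type} [Fintype ι] {Gv : ι → Type u} [∀ v, Group (Gv v)]
  {r : ∀ v, Gv v →* G} {𝒰v : ∀ v, LevelStr (Gv v)} (hr : ∀ v, IsCont (𝒰v v) 𝒰 (r v))
  {μ : Rep.{u} k G} (hμ : ∃ U ∈ 𝒰.levels, ∀ s ∈ U, ∀ m : μ, μ.ρ s m = m)
  (inv : ∀ v, (𝒰v v).H2 (Rep.res (r v) μ) →ₗ[k] k)

/-- `0 → μ → J → Y → 0` is short exact -/
lemma shortExact_diag_qY [Nonempty ι] :
    LevelStr.ShortExact (diag (r := r) hμ).1 (qY (r := r) hμ).1 where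
  equivariant_left := eqHom_isEquivariant _
  equivariant_right := eqHom_isEquivariant _
  injective := diag_injective hμ
  surjective := cokerProj_surjective _
  exact := fun b => cokerProj_apply_eq_zero_iff (diag (r := r) hμ) b

/-- exactness of `H²(μ) → H²(J) → H²(Y)` -/
lemma exact_H2m_diag_qY [Nonempty ι] :
    Function.Exact (H2m 𝒰 (diag (r := r) hμ)) (H2m 𝒰 (qY (r := r) hμ)) := by
  have h := (shortExact_diag_qY (r := r) hμ).exact_H2map_H2map 𝒰 JObj_isSmooth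
  intro z
  rw [H2m_eq_H2map 𝒰 _ (eqHom_isEquivariant _), h z]
  constructor
  · rintro ⟨x, hx⟩
    exact ⟨x, by rw [H2m_eq_H2map 𝒰 _ (eqHom_isEquivariant _), hx]⟩
  · rintro ⟨x, hx⟩
    exact ⟨x, by rw [← H2m_eq_H2map 𝒰 _ (eqHom_isEquivariant _), hx]⟩

/-- the sum of the local invariants of the components, on `H²(J)` -/
def invJ : 𝒰.H2 (JObj 𝒰 r μ) →ₗ[k] k :=
  ∑ v, inv v ∘ₗ H2map (hr v) (evLin_isEquivariant v)

lemma invJ_apply (z : 𝒰.H2 (JObj 𝒰 r μ)) :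
    invJ hr inv z = ∑ v, inv v (H2map (hr v) (evLin_isEquivariant v) z) := by
  simp [invJ, LinearMap.sum_apply]

/-- `Λ` is a dualizing trace: on the image of `H²(J)` it is the sum of the local invariants. -/
def IsTrace (Λ : 𝒰.H2 (YObj (r := r) hμ) →ₗ[k] k) : Prop :=
  ∀ z : 𝒰.H2 (JObj 𝒰 r μ), Λ (H2m 𝒰 (qY (r := r) hμ) z) = invJ hr inv z

/-- `H²(ev_v) ∘ H²(diag) = loc_v` -/
lemma H2map_evLin_diag (v : ι) (x : 𝒰.H2 μ) :
    H2map (hr v) (evLin_isEquivariant v) (H2m 𝒰 (diag (r := r) hμ) x) = loc₂ hr v μ x := by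
  rw [H2map_H2m]
  refine H2map_congr (hr v) _ _ ?_ x
  apply LinearMap.ext
  intro m
  exact evLin_diag (r := r) hμ v m

/-- reciprocity: `invJ` kills the image of `H²(μ)` -/
lemma invJ_diag (hrec : ∀ x : 𝒰.H2 μ, ∑ v, inv v (loc₂ hr v μ x) = 0) (x : 𝒰.H2 μ) :
    invJ hr inv (H2m 𝒰 (diag (r := r) hμ) x) = 0 := by
  rw [invJ_apply, ← hrec x]
  exact Finset.sum_congr rfl fun v _ => by rw [H2map_evLin_diag]

/-- existence of the trace from `cd ≤ 2` (surjectivity of `H²(J) → H²(Y)`) and reciprocity -/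
theorem exists_isTrace [Nonempty ι]
    (hJY : Function.Surjective (H2m 𝒰 (qY (r := r) hμ)))
    (hrec : ∀ x : 𝒰.H2 μ, ∑ v, inv v (loc₂ hr v μ x) = 0) :
    ∃ Λ, IsTrace hr hμ inv Λ := by
  obtain ⟨g, hg⟩ := LinearMap.exists_rightInverse_of_surjective (H2m 𝒰 (qY (r := r) hμ))
    (LinearMap.range_eq_top.2 hJY)
  refine ⟨invJ hr inv ∘ₗ g, fun z => ?_⟩
  have h1 : H2m 𝒰 (qY (r := r) hμ) (g (H2m 𝒰 (qY (r := r) hμ) z) - z) = 0 := by
    rw [map_sub, sub_eq_zero]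
    exact LinearMap.congr_fun hg _
  obtain ⟨x, hx⟩ := (exact_H2m_diag_qY hμ _).1 h1
  have h2 := invJ_diag hr hμ inv hrec x
  rw [hx, map_sub, sub_eq_zero] at h2
  exact h2

/-- the trace is unique when `H²(J) → H²(Y)` is surjective -/
theorem isTrace_unique (hJY : Function.Surjective (H2m 𝒰 (qY (r := r) hμ)))
    {Λ Λ' : 𝒰.H2 (YObj (r := r) hμ) →ₗ[k] k} (h : IsTrace hr hμ inv Λ)
    (h' : IsTrace hr hμ inv Λ') : Λ = Λ' := by
  apply LinearMap.ext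
  intro y
  obtain ⟨z, rfl⟩ := hJY y
  rw [h z, h' z]

end Fermat.Agent.S55.Dualizing59
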