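/-
S55 / 44-DUALIZING (helper59), part 2d: the count.

With the dualizing isomorphism `θ : Hom_G(M, Y) ≃ H²(M)^*`, local dualities
`θ_v : Hom_{G_v}(M, μ) ↠ H²(G_v, M)^*` and formula (A)
`∏_v Hom_{G_v}(M, μ) → Hom_G(M, Y) → H¹(M') → ∏_v H¹(G_v, M')` we get
`Sha¹(M') ≃ Sha²(M)^*`.
-/
import Fermat.Agent.S55.Dualizing59.Lambda

set_option autoImplicit false

universe u

open CategoryTheory groupCohomology

namespace Fermat.Agent.S55.Dualizing59

open Fermat.Agent.S55.Profin15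

variable {k : Type u} [Field k] {G : Type u} [Group G]
  {𝒰 : LevelStr G} {ι : Type} [Fintype ι] {Gv : ι → Type u} [∀ v, Group (Gv v)]
  {r : ∀ v, Gv v →* G} {𝒰v : ∀ v, LevelStr (Gv v)} (hr : ∀ v, IsCont (𝒰v v) 𝒰 (r v))
  {μ : Rep.{u} k G} (hμ : ∃ U ∈ 𝒰.levels, ∀ s ∈ U, ∀ m : μ, μ.ρ s m = m)
  (inv : ∀ v, (𝒰v v).H2 (Rep.res (r v) μ) →ₗ[k] k)

/-- the local dualities -/
abbrev thetaLoc (v : ι) (M : Rep.{u} k G) :
    eqHom (Rep.res (r v) M) (Rep.res (r v) μ) →ₗ[k]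
      Module.Dual k ((𝒰v v).H2 (Rep.res (r v) M)) :=
  theta (𝒰v v) (Rep.res (r v) μ) (inv v) (Rep.res (r v) M)

/-- compatibility of the global and the local dualities:
`θ (α ψ) = ∑_v θ_v (ψ_v) ∘ loc_v` -/
theorem theta_alpha {Λ : 𝒰.H2 (YObj (r := r) hμ) →ₗ[k] k} (hΛ : IsTrace hr hμ inv Λ)
    {M : Rep.{u} k G} (hM : 𝒰.IsSmooth M) (ψ : LocHom r M μ) :
    theta 𝒰 (YObj (r := r) hμ) Λ M (alpha hμ hM ψ) =
      ∑ v, thetaLoc (𝒰v := 𝒰v) inv v M (ψ v) ∘ₗ loc₂ hr v M := by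
  apply LinearMap.ext
  intro z
  rw [alpha_apply, theta_apply, H2m_comp, LinearMap.comp_apply, LinearMap.comp_apply, hΛ,
    invJ_apply, LinearMap.sum_apply]
  refine Finset.sum_congr rfl fun v _ => ?_
  rw [LinearMap.comp_apply, theta_apply, LinearMap.comp_apply]
  congr 1
  rw [H2map_H2m, loc₂, H2m_H2map]
  refine H2map_congr (hr v) _ _ ?_ z
  apply LinearMap.ext
  intro m
  exact evLin_frob hM ψ v m

/-- a functional vanishing on the common kernel of finitely many linear maps is a sum of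
functionals factoring through them -/
theorem exists_dual_of_vanishing {V : Type*} [AddCommGroup V] [Module k V] {W : ι → Type*}
    [∀ v, AddCommGroup (W v)] [∀ v, Module k (W v)] (f : ∀ v, V →ₗ[k] W v)
    (t : Module.Dual k V) (ht : ∀ z, (∀ v, f v z = 0) → t z = 0) :
    ∃ l : ∀ v, Module.Dual k (W v), t = ∑ v, l v ∘ₗ f v := by
  classical
  have h1 : t ∈ (LinearMap.ker (LinearMap.pi f)).dualAnnihilator := by
    rw [Submodule.mem_dualAnnihilator]
    intro z hz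
    apply ht
    intro v
    have := congr_fun (LinearMap.mem_ker.1 hz) v
    exact this
  rw [← LinearMap.range_dualMap_eq_dualAnnihilator_ker] at h1
  obtain ⟨L, hL⟩ := h1
  refine ⟨fun v => L ∘ₗ LinearMap.single k W v, ?_⟩
  rw [← hL]
  apply LinearMap.ext
  intro z
  rw [LinearMap.dualMap_apply, LinearMap.sum_apply]
  have h2 : LinearMap.pi f z = ∑ v, LinearMap.single k W v (f v z) := by
    funext w
    rw [Finset.sum_apply]
    simp
  rw [h2, map_sum]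
  rfl

/-- a functional on `H²(M)` vanishing on `Sha²` is a sum of local functionals -/
lemma exists_local_of_vanishing (M : Rep.{u} k G) (t : Module.Dual k (𝒰.H2 M))
    (ht : ∀ z ∈ Sha2 hr M, t z = 0) :
    ∃ l : ∀ v, Module.Dual k ((𝒰v v).H2 (Rep.res (r v) M)), t = ∑ v, l v ∘ₗ loc₂ hr v M :=
  exists_dual_of_vanishing (V := 𝒰.H2 M) (W := fun v => (𝒰v v).H2 (Rep.res (r v) M))
    (fun v => loc₂ hr v M) t fun z hz => ht z ((mem_Sha2_iff hr M z).2 hz)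

variable {M M' : Rep.{u} k G} (hM : 𝒰.IsSmooth M)

/-- the map `Hom_G(M, Y) → Sha²(M)^*` -/
def gammaMap (Λ : 𝒰.H2 (YObj (r := r) hμ) →ₗ[k] k) (M : Rep.{u} k G) :
    eqHom M (YObj (r := r) hμ) →ₗ[k] Module.Dual k ↥(Sha2 hr M) :=
  (Sha2 hr M).dualRestrict ∘ₗ theta 𝒰 (YObj (r := r) hμ) Λ M

lemma gammaMap_surjective (Λ : 𝒰.H2 (YObj (r := r) hμ) →ₗ[k] k)
    (hglob : Function.Surjective (theta 𝒰 (YObj (r := r) hμ) Λ M)) :
    Function.Surjective (gammaMap hr hμ Λ M) :=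
  (Subspace.dualRestrict_surjective (W := Sha2 hr M)).comp hglob

include hM in
lemma ker_gammaMap {Λ : 𝒰.H2 (YObj (r := r) hμ) →ₗ[k] k} (hΛ : IsTrace hr hμ inv Λ)
    (hglob : Function.Injective (theta 𝒰 (YObj (r := r) hμ) Λ M))
    (hloc : ∀ v, Function.Surjective (thetaLoc (𝒰v := 𝒰v) inv v M)) :
    LinearMap.ker (gammaMap hr hμ Λ M) = LinearMap.range (alpha hμ hM) := by
  ext φ
  constructor
  · intro hφ
    have h1 : ∀ z ∈ Sha2 hr M, theta 𝒰 (YObj (r := r) hμ) Λ M φ z = 0 := by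
      intro z hz
      have := LinearMap.congr_fun (LinearMap.mem_ker.1 hφ) ⟨z, hz⟩
      exact this
    obtain ⟨l, hl⟩ := exists_local_of_vanishing hr M _ h1
    choose ψ hψ using fun v => hloc v (l v)
    refine ⟨ψ, hglob ?_⟩
    rw [theta_alpha hr hμ inv hΛ hM ψ, hl]
    exact Finset.sum_congr rfl fun v _ => by rw [hψ v]
  · rintro ⟨ψ, rfl⟩
    rw [LinearMap.mem_ker]
    apply LinearMap.ext
    rintro ⟨z, hz⟩
    show theta 𝒰 (YObj (r := r) hμ) Λ M (alpha hμ hM ψ) z = 0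
    rw [theta_alpha hr hμ inv hΛ hM ψ, LinearMap.sum_apply]
    refine Finset.sum_eq_zero fun v _ => ?_
    rw [LinearMap.comp_apply, (mem_Sha2_iff hr M z).1 hz v, map_zero]

include hM in
/-- **Abstract Poitou–Tate duality `Sha¹(M') ≃ Sha²(M)^*`**, given the connecting map `β` of
formula (A). -/
theorem sha_duality_of_beta {Λ : 𝒰.H2 (YObj (r := r) hμ) →ₗ[k] k} (hΛ : IsTrace hr hμ inv Λ)
    (β : eqHom M (YObj (r := r) hμ) →ₗ[k] 𝒰.H1 M')
    (hβr : LinearMap.range β = Sha1 hr M')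
    (hβk : LinearMap.ker β = LinearMap.range (alpha hμ hM))
    (hglob : Function.Bijective (theta 𝒰 (YObj (r := r) hμ) Λ M))
    (hloc : ∀ v, Function.Surjective (thetaLoc (𝒰v := 𝒰v) inv v M)) :
    Nonempty (↥(Sha1 hr M') ≃ₗ[k] Module.Dual k ↥(Sha2 hr M)) := by
  have hk : LinearMap.ker β = LinearMap.ker (gammaMap hr hμ Λ M) := by
    rw [hβk, ker_gammaMap hr hμ inv hM hΛ hglob.1 hloc]
  exact ⟨(LinearEquiv.ofEq _ _ hβr).symm ≪≫ₗ β.quotKerEquivRange.symm ≪≫ₗ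
    Submodule.quotEquivOfEq _ _ hk ≪≫ₗ
    (gammaMap hr hμ Λ M).quotKerEquivOfSurjective (gammaMap_surjective hr hμ Λ hglob.2)⟩

/-- finite-dimensionality and equality of dimensions -/
theorem finrank_Sha1_eq_of_equiv
    (e : ↥(Sha1 hr M') ≃ₗ[k] Module.Dual k ↥(Sha2 hr M)) [Module.Finite k ↥(Sha2 hr M)] :
    Module.Finite k ↥(Sha1 hr M') ∧
      Module.finrank k ↥(Sha1 hr M') = Module.finrank k ↥(Sha2 hr M) := by
  refine ⟨Module.Finite.equiv e.symm, ?_⟩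
  rw [e.finrank_eq, Subspace.dual_finrank_eq]

end Fermat.Agent.S55.Dualizing59
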