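/-
S55 / 44-DUALIZING (helper59), part 3: the per-level hypotheses (c1), (c2), (c4) of the base case
(`HBase48`) at the `Dualizing59` objects.

For a smooth `N`:
* `frobEquiv : ∏_v Hom_{G_v}(N, μ) ≃ Hom_G(N, J)` (Frobenius reciprocity);
* `tauMap : Hom_G(N, J) → (∏_v H²(G_v, N))^*`, `x ↦ ∑_v inv_v ∘ H²(ev_v ∘ x)`;
* (c1) `theta (q ∘ x) = tauMap x ∘ locAll₂`;
* (c2) `tauMap` is bijective if all local dualities `thetaLoc v` are;
* (c4) for `N = k^(G/V)` with `V` acting trivially on `μ ≠ 0` there is `x₀ ≠ 0` with `q ∘ x₀ = 0`.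
-/
import Fermat.Agent.S55.Dualizing59.Count

set_option autoImplicit false

universe u

open CategoryTheory groupCohomology

namespace Fermat.Agent.S55.Dualizing59

open Fermat.Agent.S55.Profin15

variable {k : Type u} [Field k]

/-! ### the dual of a finite product -/

section generic

variable {ι : Type} [Fintype ι] {T : ι → Type*} {W : ι → Type*}
  [∀ v, AddCommGroup (T v)] [∀ v, Module k (T v)] [∀ v, AddCommGroup (W v)]
  [∀ v, Module k (W v)]

/-- a family of maps `T v → (W v)^*` gives `∏ T v → (∏ W v)^*` -/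
def piDualMap (θ : ∀ v, T v →ₗ[k] Module.Dual k (W v)) :
    (∀ v, T v) →ₗ[k] Module.Dual k (∀ v, W v) :=
  ∑ v, (LinearMap.proj v : (∀ v, W v) →ₗ[k] W v).dualMap ∘ₗ θ v ∘ₗ LinearMap.proj v

lemma piDualMap_apply (θ : ∀ v, T v →ₗ[k] Module.Dual k (W v)) (t : ∀ v, T v)
    (w : ∀ v, W v) : piDualMap θ t w = ∑ v, θ v (t v) (w v) := by
  simp [piDualMap, LinearMap.sum_apply]

lemma piDualMap_bijective (θ : ∀ v, T v →ₗ[k] Module.Dual k (W v))
    (h : ∀ v, Function.Bijective (θ v)) : Function.Bijective (piDualMap θ) := by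
  classical
  constructor
  · rw [← LinearMap.ker_eq_bot, LinearMap.ker_eq_bot']
    intro t ht
    funext v
    apply (h v).1
    show θ v (t v) = θ v 0
    rw [map_zero]
    apply LinearMap.ext
    intro x
    have h1 := LinearMap.congr_fun ht (Pi.single v x)
    rw [piDualMap_apply, LinearMap.zero_apply] at h1
    rw [Finset.sum_eq_single v] at h1
    · simpa using h1
    · intro w _ hwv
      rw [Pi.single_eq_of_ne hwv, map_zero]
    · intro hv
      exact (hv (Finset.mem_univ v)).elim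
  · intro L
    choose t ht using fun v => (h v).2 (L ∘ₗ LinearMap.single k W v)
    refine ⟨t, ?_⟩
    apply LinearMap.ext
    intro w
    rw [piDualMap_apply]
    have h2 : w = ∑ v, LinearMap.single k W v (w v) := by
      funext u
      rw [Finset.sum_apply]
      simp
    conv_rhs => rw [h2, map_sum]
    exact Finset.sum_congr rfl fun v _ => by rw [ht v]; rfl

end generic

variable {G : Type u} [Group G]
  {𝒰 : LevelStr G} {ι : Type} [Fintype ι] {Gv : ι → Type u} [∀ v, Group (Gv v)]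
  {r : ∀ v, Gv v →* G} {𝒰v : ∀ v, LevelStr (Gv v)} (hr : ∀ v, IsCont (𝒰v v) 𝒰 (r v))
  {μ : Rep.{u} k G} (hμ : ∃ U ∈ 𝒰.levels, ∀ s ∈ U, ∀ m : μ, μ.ρ s m = m)
  (inv : ∀ v, (𝒰v v).H2 (Rep.res (r v) μ) →ₗ[k] k)

/-! ### Frobenius reciprocity is an isomorphism -/

lemma frob_injective {N : Rep.{u} k G} (hN : 𝒰.IsSmooth N) :
    Function.Injective (frob (𝒰 := 𝒰) (r := r) (μ := μ) hN) := by
  intro ψ ψ' h
  funext v
  apply Subtype.ext
  apply LinearMap.ext
  intro m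
  rw [← evLin_frob (𝒰 := 𝒰) hN ψ v m, ← evLin_frob (𝒰 := 𝒰) hN ψ' v m, h]

lemma frob_surjective {N : Rep.{u} k G} (hN : 𝒰.IsSmooth N) :
    Function.Surjective (frob (𝒰 := 𝒰) (r := r) (μ := μ) hN) := by
  intro Ψ
  obtain ⟨ψ, -, h⟩ := eq_frob hN Ψ
  exact ⟨ψ, h⟩

/-- Frobenius reciprocity `∏_v Hom_{G_v}(N, μ) ≃ Hom_G(N, J)` -/
noncomputable def frobEquiv {N : Rep.{u} k G} (hN : 𝒰.IsSmooth N) :
    LocHom r N μ ≃ₗ[k] eqHom N (JObj 𝒰 r μ) :=
  LinearEquiv.ofBijective (frob hN) ⟨frob_injective hN, frob_surjective hN⟩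

lemma frobEquiv_apply {N : Rep.{u} k G} (hN : 𝒰.IsSmooth N) (ψ : LocHom r N μ) :
    frobEquiv (𝒰 := 𝒰) hN ψ = frob hN ψ := rfl

/-! ### the local side -/

/-- `∏_v H²(G_v, N)` -/
abbrev PLoc (𝒰v : ∀ v, LevelStr (Gv v)) (r : ∀ v, Gv v →* G) (N : Rep.{u} k G) : Type u :=
  ∀ v, (𝒰v v).H2 (Rep.res (r v) N)

/-- the product of the local dualities `∏_v Hom_{G_v}(N, μ) → (∏_v H²(G_v, N))^*` -/
noncomputable def tauLoc (N : Rep.{u} k G) : LocHom r N μ →ₗ[k] Module.Dual k (PLoc 𝒰v r N) :=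
  piDualMap (T := fun v => ↥(eqHom (Rep.res (r v) N) (Rep.res (r v) μ)))
    (W := fun v => (𝒰v v).H2 (Rep.res (r v) N)) fun v => thetaLoc (𝒰v := 𝒰v) inv v N

lemma tauLoc_apply (N : Rep.{u} k G) (ψ : LocHom r N μ) (w : PLoc 𝒰v r N) :
    tauLoc (𝒰v := 𝒰v) inv N ψ w = ∑ v, thetaLoc (𝒰v := 𝒰v) inv v N (ψ v) (w v) :=
  piDualMap_apply (T := fun v => ↥(eqHom (Rep.res (r v) N) (Rep.res (r v) μ)))
    (W := fun v => (𝒰v v).H2 (Rep.res (r v) N)) _ ψ w

lemma tauLoc_bijective (N : Rep.{u} k G)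
    (hloc : ∀ v, Function.Bijective (thetaLoc (𝒰v := 𝒰v) inv v N)) :
    Function.Bijective (tauLoc (𝒰v := 𝒰v) (r := r) inv N) :=
  piDualMap_bijective (T := fun v => ↥(eqHom (Rep.res (r v) N) (Rep.res (r v) μ)))
    (W := fun v => (𝒰v v).H2 (Rep.res (r v) N)) _ hloc

/-- `τ : Hom_G(N, J) → (∏_v H²(G_v, N))^*`, Frobenius reciprocity followed by the local
dualities -/
noncomputable def tauMap {N : Rep.{u} k G} (hN : 𝒰.IsSmooth N) :
    eqHom N (JObj 𝒰 r μ) →ₗ[k] Module.Dual k (PLoc 𝒰v r N) :=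
  tauLoc (𝒰v := 𝒰v) inv N ∘ₗ (frobEquiv (𝒰 := 𝒰) hN).symm.toLinearMap

lemma tauMap_frob {N : Rep.{u} k G} (hN : 𝒰.IsSmooth N) (ψ : LocHom r N μ) :
    tauMap (𝒰v := 𝒰v) inv hN (frob hN ψ) = tauLoc (𝒰v := 𝒰v) inv N ψ := by
  show tauLoc (𝒰v := 𝒰v) inv N ((frobEquiv (𝒰 := 𝒰) hN).symm (frobEquiv (𝒰 := 𝒰) hN ψ)) = _
  rw [LinearEquiv.symm_apply_apply]

/-- **(c2)** `τ` is bijective if the local dualities are -/
theorem tauMap_bijective {N : Rep.{u} k G} (hN : 𝒰.IsSmooth N)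
    (hloc : ∀ v, Function.Bijective (thetaLoc (𝒰v := 𝒰v) inv v N)) :
    Function.Bijective (tauMap (𝒰v := 𝒰v) inv hN) :=
  (tauLoc_bijective inv N hloc).comp (frobEquiv (𝒰 := 𝒰) hN).symm.bijective

/-- all localisation maps in degree `2` together -/
def locAll₂ (N : Rep.{u} k G) : 𝒰.H2 N →ₗ[k] PLoc 𝒰v r N :=
  LinearMap.pi fun v => loc₂ hr v N

lemma locAll₂_apply (N : Rep.{u} k G) (z : 𝒰.H2 N) (v : ι) :
    locAll₂ hr N z v = loc₂ hr v N z := rfl

omit [Fintype ι] in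
lemma ker_locAll₂ (N : Rep.{u} k G) : LinearMap.ker (locAll₂ hr N) = Sha2 hr N := by
  rw [locAll₂, LinearMap.ker_pi]
  rfl

/-- **(c1)** `θ (q ∘ x) = τ x ∘ loc` -/
theorem theta_qY_comp {Λ : 𝒰.H2 (YObj (r := r) hμ) →ₗ[k] k} (hΛ : IsTrace hr hμ inv Λ)
    {N : Rep.{u} k G} (hN : 𝒰.IsSmooth N) (x : eqHom N (JObj 𝒰 r μ)) :
    theta 𝒰 (YObj (r := r) hμ) Λ N (eqComp (qY (r := r) hμ) x) =
      tauMap (𝒰v := 𝒰v) inv hN x ∘ₗ locAll₂ hr N := by
  obtain ⟨ψ, rfl⟩ := frob_surjective hN x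
  rw [tauMap_frob, ← alpha_apply, theta_alpha hr hμ inv hΛ hN ψ]
  apply LinearMap.ext
  intro z
  rw [LinearMap.comp_apply, tauLoc_apply, LinearMap.sum_apply]
  rfl

/-! ### (c4) -/

section c4

variable {V : Subgroup G} [Fintype (G ⧸ V)]

/-- **(c4)** for `V` acting trivially on `μ ≠ 0` there is a nonzero equivariant
`x₀ : k^(G/V) → J` killed by `J → Y`. -/
theorem exists_ne_zero_comp_eq_zero [Nonempty ι] (hV : ∀ s ∈ V, ∀ m : μ, μ.ρ s m = m)
    (hμ0 : ∃ m : μ, m ≠ 0) :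
    ∃ x₀ : eqHom (coind (k := k) V k) (JObj 𝒰 r μ),
      x₀ ≠ 0 ∧ eqComp (qY (r := r) hμ) x₀ = 0 := by
  obtain ⟨m₀, hm₀⟩ := hμ0
  let sm : k →ₗ[k] μ := LinearMap.toSpanSingleton k μ m₀
  let y : eqHom (coind (k := k) V k) μ := eqComp (cover hV) (coindMap (V := V) sm)
  refine ⟨eqComp (diag (r := r) hμ) y, ?_, ?_⟩
  · intro h0
    -- `y` is onto the line `k m₀`
    obtain ⟨f, hf⟩ := cover_surjective hV m₀
    classical
    have h1 : (y.1 (fun x => if x = ((1 : G) : G ⧸ V) then 1 else 0) : μ) ≠ 0 → False := by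
      intro hne
      have h2 : (diag (r := r) hμ).1 (y.1 (fun x => if x = ((1 : G) : G ⧸ V) then 1 else 0)) =
          0 := congrArg (fun e : eqHom (coind (k := k) V k) (JObj 𝒰 r μ) =>
        e.1 (fun x => if x = ((1 : G) : G ⧸ V) then 1 else 0)) h0
      exact hne (diag_injective (r := r) hμ (h2.trans (map_zero _).symm))
    apply h1
    show coverLin V μ (fun x => sm (if x = ((1 : G) : G ⧸ V) then (1 : k) else 0)) ≠ 0
    rw [coverLin_apply, Finset.sum_eq_single ((1 : G) : G ⧸ V)]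
    · rw [if_pos rfl]
      have : sm 1 = m₀ := by simp [sm]
      rw [this]
      have h3 : μ.ρ (Quotient.out ((1 : G) : G ⧸ V)) m₀ = μ.ρ 1 m₀ :=
        rho_eq_of_coset_eq hV (QuotientGroup.out_eq' _) m₀
      rw [h3, map_one, Module.End.one_apply]
      exact hm₀
    · intro b _ hb
      rw [if_neg hb, map_zero, map_zero]
    · intro h
      exact (h (Finset.mem_univ _)).elim
  · apply Subtype.ext
    apply LinearMap.ext
    intro f
    exact cokerProj_comp (diag (r := r) hμ) (y.1 f)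

end c4

/-! ### local dualities from the local base case -/

include hr in
omit [Fintype ι] in
lemma isSmooth_res {v : ι} {N : Rep.{u} k G} (hN : 𝒰.IsSmooth N) :
    (𝒰v v).IsSmooth (Rep.res (r v) N) := by
  intro n
  obtain ⟨U, hU, hfix⟩ := hN n
  obtain ⟨W, hW, hWU⟩ := hr v U hU
  exact ⟨W, hW, fun s hs => hfix _ (hWU s hs)⟩

include hr in
/-- the local dualities are bijective on restrictions of smooth finite-dimensional modules,
from local right exactness and the local base case -/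
theorem thetaLoc_bijective_of_base (v : ι) (hRS : RightExactH2 k (𝒰v v))
    (hbase : ∀ U ∈ (𝒰v v).levels, ∃ V ∈ (𝒰v v).levels, V ≤ U ∧
      Function.Bijective (theta (𝒰v v) (Rep.res (r v) μ) (inv v) (coind (k := k) V k)))
    (N : Rep.{u} k G) [Module.Finite k N] (hN : 𝒰.IsSmooth N) :
    Function.Bijective (thetaLoc (𝒰v := 𝒰v) inv v N) := by
  haveI : Module.Finite k (Rep.res (r v) N) := inferInstanceAs (Module.Finite k N)
  exact theta_bijective (𝒰v v) (Rep.res (r v) μ) (inv v) hRS hbase (Rep.res (r v) N)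
    (isSmooth_res hr hN)

end Fermat.Agent.S55.Dualizing59
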