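/-
S55 / 44-DUALIZING (helper59), part 4: transport of level cohomology, localisation maps and
`Sha¹`, `Sha²` along equivariant linear isomorphisms.
-/
import Fermat.Agent.S55.Dualizing59.BaseInst

set_option autoImplicit false

universe u

open CategoryTheory groupCohomology

namespace Fermat.Agent.S55.Dualizing59

open Fermat.Agent.S55.Profin15

variable {k : Type u} [Field k] {G : Type u} [Group G]

/-! ### `H¹` of an equivariant map -/

section H1m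

variable (𝒰 : LevelStr G)

/-- `H¹` of an equivariant map -/
def H1m {A B : Rep.{u} k G} (φ : eqHom A B) : 𝒰.H1 A →ₗ[k] 𝒰.H1 B :=
  H1map (isCont_id 𝒰) φ.2

lemma H1m_H1π {A B : Rep.{u} k G} (φ : eqHom A B) (x : ↥(𝒰.Z₁ A)) :
    H1m 𝒰 φ (𝒰.H1π A x) = 𝒰.H1π B (Z₁map (isCont_id 𝒰) φ.2 x) := rfl

lemma H1m_comp {A B C : Rep.{u} k G} (ψ : eqHom B C) (φ : eqHom A B) :
    H1m 𝒰 (eqComp ψ φ) = H1m 𝒰 ψ ∘ₗ H1m 𝒰 φ := by
  apply LinearMap.ext
  intro x
  obtain ⟨x, rfl⟩ := Submodule.mkQ_surjective _ x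
  rfl

lemma H1m_id (A : Rep.{u} k G) : H1m 𝒰 (eqId A) = LinearMap.id := by
  apply LinearMap.ext
  intro x
  obtain ⟨x, rfl⟩ := Submodule.mkQ_surjective _ x
  rfl

end H1m

/-! ### equivariant isomorphisms -/

/-- an equivariant linear isomorphism -/
structure EqIso (A B : Rep.{u} k G) where
  /-- the underlying linear equivalence -/
  toEquiv : A ≃ₗ[k] B
  /-- equivariance -/
  equivariant : ∀ (g : G) (a : A), toEquiv (A.ρ g a) = B.ρ g (toEquiv a)

namespace EqIso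

variable {A B : Rep.{u} k G} (e : EqIso A B)

/-- the forward map -/
def hom : eqHom A B := ⟨e.toEquiv.toLinearMap, fun g a => e.equivariant g a⟩

/-- the backward map -/
def inv : eqHom B A := ⟨e.toEquiv.symm.toLinearMap, fun g b => by
  apply e.toEquiv.injective
  show e.toEquiv (e.toEquiv.symm (B.ρ g b)) = e.toEquiv (A.ρ g (e.toEquiv.symm b))
  rw [e.equivariant, e.toEquiv.apply_symm_apply, e.toEquiv.apply_symm_apply]⟩

lemma inv_comp_hom : eqComp e.inv e.hom = eqId A := by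
  apply Subtype.ext
  apply LinearMap.ext
  intro a
  exact e.toEquiv.symm_apply_apply a

lemma hom_comp_inv : eqComp e.hom e.inv = eqId B := by
  apply Subtype.ext
  apply LinearMap.ext
  intro b
  exact e.toEquiv.apply_symm_apply b

/-- the inverse isomorphism -/
def symm : EqIso B A := ⟨e.toEquiv.symm, fun g b => e.inv.2 g b⟩

/-- restriction along a group homomorphism -/
def res {H : Type u} [Group H] (f : H →* G) : EqIso (Rep.res f A) (Rep.res f B) :=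
  ⟨e.toEquiv, fun h a => e.equivariant (f h) a⟩

variable (𝒰 : LevelStr G)

/-- the induced isomorphism on `H²` -/
def H2equiv : 𝒰.H2 A ≃ₗ[k] 𝒰.H2 B :=
  LinearEquiv.ofLinearMap (H2m 𝒰 e.hom) (H2m 𝒰 e.inv)
    (by rw [← H2m_comp, hom_comp_inv, H2m_id])
    (by rw [← H2m_comp, inv_comp_hom, H2m_id])

/-- the induced isomorphism on `H¹` -/
def H1equiv : 𝒰.H1 A ≃ₗ[k] 𝒰.H1 B :=
  LinearEquiv.ofLinearMap (H1m 𝒰 e.hom) (H1m 𝒰 e.inv)
    (by rw [← H1m_comp, hom_comp_inv, H1m_id])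
    (by rw [← H1m_comp, inv_comp_hom, H1m_id])

@[simp] lemma H2equiv_apply (z : 𝒰.H2 A) : e.H2equiv 𝒰 z = H2m 𝒰 e.hom z := rfl
@[simp] lemma H1equiv_apply (z : 𝒰.H1 A) : e.H1equiv 𝒰 z = H1m 𝒰 e.hom z := rfl

end EqIso

/-! ### naturality of the localisation maps -/

section loc

variable {𝒰 : LevelStr G} {ι : Type} {Gv : ι → Type u} [∀ v, Group (Gv v)]
  {r : ∀ v, Gv v →* G} {𝒰v : ∀ v, LevelStr (Gv v)} (hr : ∀ v, IsCont (𝒰v v) 𝒰 (r v))

/-- restriction of an equivariant map -/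
def eqRes {A B : Rep.{u} k G} (φ : eqHom A B) (v : ι) :
    eqHom (Rep.res (r v) A) (Rep.res (r v) B) :=
  ⟨φ.1, fun d a => φ.2 (r v d) a⟩

lemma loc₂_H2m {A B : Rep.{u} k G} (φ : eqHom A B) (v : ι) (z : 𝒰.H2 A) :
    loc₂ hr v B (H2m 𝒰 φ z) = H2m (𝒰v v) (eqRes (r := r) φ v) (loc₂ hr v A z) := by
  obtain ⟨c, rfl⟩ := Submodule.Quotient.mk_surjective _ z
  rfl

lemma loc₁_H1m {A B : Rep.{u} k G} (φ : eqHom A B) (v : ι) (z : 𝒰.H1 A) :
    loc₁ hr v B (H1m 𝒰 φ z) = H1m (𝒰v v) (eqRes (r := r) φ v) (loc₁ hr v A z) := by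
  obtain ⟨c, rfl⟩ := Submodule.Quotient.mk_surjective _ z
  rfl

lemma H2m_mem_Sha2 {A B : Rep.{u} k G} (φ : eqHom A B) {z : 𝒰.H2 A} (hz : z ∈ Sha2 hr A) :
    H2m 𝒰 φ z ∈ Sha2 hr B := by
  rw [mem_Sha2_iff] at hz ⊢
  intro v
  rw [loc₂_H2m, hz v, map_zero]

lemma H1m_mem_Sha1 {A B : Rep.{u} k G} (φ : eqHom A B) {z : 𝒰.H1 A} (hz : z ∈ Sha1 hr A) :
    H1m 𝒰 φ z ∈ Sha1 hr B := by
  rw [mem_Sha1_iff] at hz ⊢
  intro v
  rw [loc₁_H1m, hz v, map_zero]

variable {A B : Rep.{u} k G} (e : EqIso A B)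

/-- `Sha²` is invariant under equivariant isomorphisms -/
def EqIso.Sha2equiv : ↥(Sha2 hr A) ≃ₗ[k] ↥(Sha2 hr B) :=
  LinearEquiv.ofLinearMap
    ((H2m 𝒰 e.hom).restrict fun _ hz => H2m_mem_Sha2 hr e.hom hz)
    ((H2m 𝒰 e.inv).restrict fun _ hz => H2m_mem_Sha2 hr e.inv hz)
    (by
      apply LinearMap.ext
      intro z
      apply Subtype.ext
      exact (e.H2equiv 𝒰).apply_symm_apply z.1)
    (by
      apply LinearMap.ext
      intro z
      apply Subtype.ext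
      exact (e.H2equiv 𝒰).symm_apply_apply z.1)

/-- `Sha¹` is invariant under equivariant isomorphisms -/
def EqIso.Sha1equiv : ↥(Sha1 hr A) ≃ₗ[k] ↥(Sha1 hr B) :=
  LinearEquiv.ofLinearMap
    ((H1m 𝒰 e.hom).restrict fun _ hz => H1m_mem_Sha1 hr e.hom hz)
    ((H1m 𝒰 e.inv).restrict fun _ hz => H1m_mem_Sha1 hr e.inv hz)
    (by
      apply LinearMap.ext
      intro z
      apply Subtype.ext
      exact (e.H1equiv 𝒰).apply_symm_apply z.1)
    (by
      apply LinearMap.ext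
      intro z
      apply Subtype.ext
      exact (e.H1equiv 𝒰).symm_apply_apply z.1)

/-- the product of the local isomorphisms -/
def EqIso.PLocEquiv : PLoc 𝒰v r A ≃ₗ[k] PLoc 𝒰v r B :=
  LinearEquiv.piCongrRight fun v => (e.res (r v)).H2equiv (𝒰v v)

lemma EqIso.PLocEquiv_locAll₂ (z : 𝒰.H2 A) :
    e.PLocEquiv (𝒰v := 𝒰v) (r := r) (locAll₂ hr A z) = locAll₂ hr B (e.H2equiv 𝒰 z) := by
  funext v
  exact (loc₂_H2m hr e.hom v z).symm

/-- the ranges of the total localisation maps correspond -/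
lemma EqIso.map_range_locAll₂ :
    (LinearMap.range (locAll₂ hr A)).map (e.PLocEquiv (𝒰v := 𝒰v) (r := r)).toLinearMap =
      LinearMap.range (locAll₂ hr B) := by
  ext w
  constructor
  · rintro ⟨_, ⟨z, rfl⟩, rfl⟩
    exact ⟨e.H2equiv 𝒰 z, (e.PLocEquiv_locAll₂ hr z).symm⟩
  · rintro ⟨z, rfl⟩
    refine ⟨locAll₂ hr A ((e.H2equiv 𝒰).symm z), ⟨_, rfl⟩, ?_⟩
    show e.PLocEquiv (𝒰v := 𝒰v) (r := r) (locAll₂ hr A ((e.H2equiv 𝒰).symm z)) = _
    rw [e.PLocEquiv_locAll₂ hr, LinearEquiv.apply_symm_apply]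

include e in
lemma EqIso.finrank_range_locAll₂ :
    Module.finrank k ↥(LinearMap.range (locAll₂ hr A)) =
      Module.finrank k ↥(LinearMap.range (locAll₂ hr B)) := by
  rw [← e.map_range_locAll₂ hr]
  exact (LinearEquiv.finrank_map_eq (e.PLocEquiv (𝒰v := 𝒰v) (r := r)) _).symm

end loc

end Fermat.Agent.S55.Dualizing59
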