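/-
S55 / 44-DUALIZING (helper59), part 5: hypothesis (c6) of the base case (`HBase48`):
`Hom_G(N, Y) / q_* Hom_G(N, J) ≃ Sha¹(N')` (formula (A)), so that the count
`dim Sha²(N) ≤ dim Sha¹(N')` is the count `dim ker(loc) ≤ dim coker(q_*)`.
-/
import Fermat.Agent.S55.Dualizing59.Iso
import Fermat.Agent.S55.Dualizing11.Target59

set_option autoImplicit false

universe u

open CategoryTheory groupCohomology

namespace Fermat.Agent.S55.Dualizing59

open Fermat.Agent.S55.Profin15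

variable {k : Type u} [Field k] {G : Type u} [Group G]
  {𝒰 : LevelStr G} {ι : Type} [Fintype ι] {Gv : ι → Type u} [∀ v, Group (Gv v)]
  {r : ∀ v, Gv v →* G} {𝒰v : ∀ v, LevelStr (Gv v)} (hr : ∀ v, IsCont (𝒰v v) 𝒰 (r v))
  {μ : Rep.{u} k G} (hμ : ∃ U ∈ 𝒰.levels, ∀ s ∈ U, ∀ m : μ, μ.ρ s m = m)

/-- `q_* : Hom_G(N, J) → Hom_G(N, Y)` has the same range as `α` -/
lemma range_eqCompL_qY {N : Rep.{u} k G} (hN : 𝒰.IsSmooth N) :
    LinearMap.range (eqCompL (A := N) (qY (r := r) hμ)) = LinearMap.range (alpha hμ hN) := by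
  rw [alpha, LinearMap.range_comp, LinearMap.range_eq_top.2 (frob_surjective hN),
    Submodule.map_top]

/-- **formula (A) as an isomorphism**: `Hom_G(N, Y) / q_* Hom_G(N, J) ≃ Sha¹(N')` -/
theorem nonempty_coker_equiv_Sha1 [Nonempty ι] (N N' : Rep.{u} k G) [Module.Finite k N]
    (hN : 𝒰.IsSmooth N) (B : N' →ₗ[k] N →ₗ[k] μ)
    (hBeq : ∀ (g : G) (n' : N') (n : N), B (N'.ρ g n') (N.ρ g n) = μ.ρ g (B n' n))
    (hBbij : Function.Bijective B) :
    Nonempty ((eqHom N (YObj (r := r) hμ) ⧸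
      LinearMap.range (eqCompL (A := N) (qY (r := r) hμ))) ≃ₗ[k] ↥(Sha1 hr N')) := by
  obtain ⟨β, hβr, hβk⟩ := Dualizing11.formulaA59 hr hμ N N' hN B hBeq hBbij
  have h : LinearMap.range (eqCompL (A := N) (qY (r := r) hμ)) = LinearMap.ker β := by
    rw [hβk, range_eqCompL_qY hμ hN]
  exact ⟨Submodule.quotEquivOfEq _ _ h ≪≫ₗ β.quotKerEquivRange ≪≫ₗ LinearEquiv.ofEq _ _ hβr⟩

/-- **(c6)**: the count `dim Sha²(N) ≤ dim Sha¹(N')` in the form
`dim ker(loc) ≤ dim coker(q_*)`. -/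
theorem finrank_ker_locAll₂_le [Nonempty ι] (N N' : Rep.{u} k G) [Module.Finite k N]
    (hN : 𝒰.IsSmooth N) (B : N' →ₗ[k] N →ₗ[k] μ)
    (hBeq : ∀ (g : G) (n' : N') (n : N), B (N'.ρ g n') (N.ρ g n) = μ.ρ g (B n' n))
    (hBbij : Function.Bijective B)
    (hcount : Module.finrank k ↥(Sha2 hr N) ≤ Module.finrank k ↥(Sha1 hr N')) :
    Module.finrank k ↥(LinearMap.ker (locAll₂ hr N)) ≤
      Module.finrank k (eqHom N (YObj (r := r) hμ) ⧸
        LinearMap.range (eqCompL (A := N) (qY (r := r) hμ))) := by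
  obtain ⟨e⟩ := nonempty_coker_equiv_Sha1 hr hμ N N' hN B hBeq hBbij
  rw [e.finrank_eq, ker_locAll₂]
  exact hcount

end Fermat.Agent.S55.Dualizing59
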