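/-
S55 / 44-DUALIZING (helper59), part 2e: the connecting map
`β : Hom_G(M, Y) → H¹(G, M')` of `0 → Hom(M, μ) → Hom(M, J) → Hom(M, Y) → 0`
(`M' ≃ Hom_k(M, μ)` through the perfect pairing `B`), with its characterisation by liftings.
-/
import Fermat.Agent.S55.Dualizing59.Loc

set_option autoImplicit false

universe u

open CategoryTheory groupCohomology

namespace Fermat.Agent.S55.Dualizing59

open Fermat.Agent.S55.Profin15

variable {k : Type u} [Field k] {G : Type u} [Group G] {𝒰 : LevelStr G}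

/-- a linear map from a finite-dimensional space to a smooth module has its image fixed by a
level -/
lemma exists_level_fixing_map {N : Rep.{u} k G} (hN : 𝒰.IsSmooth N) {V : Type*} [AddCommGroup V]
    [Module k V] [Module.Finite k V] (Φ : V →ₗ[k] N) :
    ∃ U ∈ 𝒰.levels, ∀ s ∈ U, ∀ x : V, N.ρ s (Φ x) = Φ x := by
  obtain ⟨S, hS⟩ : (⊤ : Submodule k V).FG := Module.finite_def.1 inferInstance
  obtain ⟨U, hU, h⟩ := hN.exists_level_of_finite (s := Φ '' S) (S.finite_toSet.image _)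
  refine ⟨U, hU, fun s hs x => ?_⟩
  have hle : (⊤ : Submodule k V) ≤ LinearMap.eqLocus (N.ρ s ∘ₗ Φ) Φ := by
    rw [← hS, Submodule.span_le]
    intro m hm
    exact h (Φ m) ⟨m, hm, rfl⟩ s hs
  exact hle (Submodule.mem_top (x := x))

variable {ι : Type} [Finite ι] {Gv : ι → Type u} [∀ v, Group (Gv v)]
  {r : ∀ v, Gv v →* G} {μ : Rep.{u} k G}
  (hμ : ∃ U ∈ 𝒰.levels, ∀ s ∈ U, ∀ m : μ, μ.ρ s m = m)
  {M M' : Rep.{u} k G} (B : M' →ₗ[k] M →ₗ[k] μ)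

/-- `(Φ, c)` is a lifting datum for `φ : M → Y`: `Φ : M → J` is a linear lift of `φ` and
`diag ∘ B (c g) = g Φ g⁻¹ - Φ`. -/
def IsLift (φ : eqHom M (YObj (r := r) hμ)) (Φ : M →ₗ[k] JObj 𝒰 r μ) (c : G → M') : Prop :=
  (∀ m, (qY (r := r) hμ).1 (Φ m) = φ.1 m) ∧
    ∀ g m, (diag (r := r) hμ).1 (B (c g) m) = (JObj 𝒰 r μ).ρ g (Φ (M.ρ g⁻¹ m)) - Φ m

section

variable (hBeq : ∀ (g : G) (m' : M') (m : M), B (M'.ρ g m') (M.ρ g m) = μ.ρ g (B m' m))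
include hBeq

omit [Finite ι] in
/-- the pairing with a translate -/
lemma B_ρ_apply (g : G) (m' : M') (m : M) :
    B (M'.ρ g m') m = μ.ρ g (B m' (M.ρ g⁻¹ m)) := by
  rw [← hBeq g m' (M.ρ g⁻¹ m), ← Module.End.mul_apply, ← map_mul, mul_inv_cancel, map_one,
    Module.End.one_apply]

/-- `diag (B (g m') m) = g • diag (B m' (g⁻¹ m))` -/
lemma diag_B_ρ (g : G) (m' : M') (m : M) :
    (diag (r := r) hμ).1 (B (M'.ρ g m') m) =
      (JObj 𝒰 r μ).ρ g ((diag (r := r) hμ).1 (B m' (M.ρ g⁻¹ m))) := by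
  rw [B_ρ_apply B hBeq]
  exact (diag (r := r) hμ).2 g _

variable [Nonempty ι] (hBinj : Function.Injective B)
include hBinj

omit hBeq in
/-- two elements of `M'` with the same image under `diag ∘ B` are equal -/
lemma eq_of_diag_B {a b : M'}
    (h : ∀ m, (diag (r := r) hμ).1 (B a m) = (diag (r := r) hμ).1 (B b m)) : a = b := by
  apply hBinj
  apply LinearMap.ext
  intro m
  exact diag_injective hμ (h m)

variable {hμ B}

lemma IsLift.mem_cocycles₁ {φ : eqHom M (YObj (r := r) hμ)} {Φ : M →ₗ[k] JObj 𝒰 r μ}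
    {c : G → M'} (h : IsLift hμ B φ Φ c) : c ∈ cocycles₁ M' := by
  rw [mem_cocycles₁_iff]
  intro g g'
  apply eq_of_diag_B (r := r) hμ B hBinj
  intro m
  have e1 : M.ρ (g * g')⁻¹ m = M.ρ g'⁻¹ (M.ρ g⁻¹ m) := by
    rw [mul_inv_rev, map_mul, Module.End.mul_apply]
  have e2 : ∀ x, (JObj 𝒰 r μ).ρ (g * g') x = (JObj 𝒰 r μ).ρ g ((JObj 𝒰 r μ).ρ g' x) := by
    intro x
    rw [map_mul, Module.End.mul_apply]
  rw [map_add, LinearMap.add_apply, map_add, diag_B_ρ hμ B hBeq, h.2 (g * g') m,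
    h.2 g' (M.ρ g⁻¹ m), h.2 g m, e1, e2, map_sub]
  abel

lemma IsLift.isConst₁ [Module.Finite k M] (hM : 𝒰.IsSmooth M)
    {φ : eqHom M (YObj (r := r) hμ)} {Φ : M →ₗ[k] JObj 𝒰 r μ}
    {c : G → M'} (h : IsLift hμ B φ Φ c) : 𝒰.IsConst₁ c := by
  obtain ⟨U₁, hU₁, h₁⟩ := exists_level_trivial M hM
  obtain ⟨U₂, hU₂, h₂⟩ := exists_level_fixing_map (N := JObj 𝒰 r μ) JObj_isSmooth Φ
  obtain ⟨W, hW, hle⟩ := 𝒰.directed U₁ hU₁ U₂ hU₂
  refine ⟨W, hW, fun g s hs => ?_⟩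
  apply eq_of_diag_B (r := r) hμ B hBinj
  intro m
  have e1 : M.ρ (g * s)⁻¹ m = M.ρ g⁻¹ m := by
    rw [mul_inv_rev, map_mul, Module.End.mul_apply,
      h₁ s⁻¹ (U₁.inv_mem (hle.trans inf_le_left hs))]
  have e2 : ∀ x, (JObj 𝒰 r μ).ρ (g * s) (Φ x) = (JObj 𝒰 r μ).ρ g (Φ x) := by
    intro x
    rw [map_mul, Module.End.mul_apply, h₂ s (hle.trans inf_le_right hs)]
  rw [h.2, h.2, e1, e2]

lemma IsLift.mem_Z₁ [Module.Finite k M] (hM : 𝒰.IsSmooth M)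
    {φ : eqHom M (YObj (r := r) hμ)} {Φ : M →ₗ[k] JObj 𝒰 r μ}
    {c : G → M'} (h : IsLift hμ B φ Φ c) : c ∈ 𝒰.Z₁ M' :=
  ⟨h.mem_cocycles₁ hBeq hBinj, h.isConst₁ hBeq hBinj hM⟩

/-- two liftings of the same `φ` differ by a coboundary -/
lemma IsLift.sub_mem_coboundaries₁ (hBsurj : Function.Surjective B)
    {φ : eqHom M (YObj (r := r) hμ)} {Φ Φ' : M →ₗ[k] JObj 𝒰 r μ}
    {c c' : G → M'} (h : IsLift hμ B φ Φ c) (h' : IsLift hμ B φ Φ' c') :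
    c - c' ∈ coboundaries₁ M' := by
  obtain ⟨v₀⟩ := ‹Nonempty ι›
  -- `Φ - Φ' = diag ∘ B f`
  obtain ⟨f, hf⟩ := hBsurj (evLin (𝒰 := 𝒰) (r := r) (μ := μ) v₀ ∘ₗ (Φ - Φ'))
  have hd : ∀ m, (diag (r := r) hμ).1 (B f m) = Φ m - Φ' m := by
    intro m
    have h0 : (qY (r := r) hμ).1 (Φ m - Φ' m) = 0 := by
      rw [map_sub, h.1, h'.1, sub_self]
    obtain ⟨y, hy⟩ := (cokerProj_apply_eq_zero_iff (diag (r := r) hμ) _).1 h0
    have h1 : B f m = y := by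
      have h2 : B f m = evLin (𝒰 := 𝒰) (r := r) (μ := μ) v₀ (Φ m - Φ' m) :=
        LinearMap.congr_fun hf m
      rw [h2]
      exact (congrArg (evLin (𝒰 := 𝒰) (r := r) (μ := μ) v₀) hy.symm).trans
        (evLin_diag (r := r) hμ v₀ y)
    rw [h1, hy]
  refine ⟨f, ?_⟩
  funext g
  rw [d₀₁_hom_apply]
  apply eq_of_diag_B (r := r) hμ B hBinj
  intro m
  rw [Pi.sub_apply, map_sub, map_sub, LinearMap.sub_apply, LinearMap.sub_apply, map_sub, map_sub,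
    diag_B_ρ hμ B hBeq, hd, hd, h.2, h'.2, map_sub]
  abel

end

/-! ### construction of `β` -/

section construction

variable {hμ B}

/-- **the connecting map** `β : Hom_G(M, Y) → H¹(G, M')` with its characterisation by liftings
(the analogue of `δ₁_eq`): every `φ` has a lifting datum, and `β φ = [c]` for any lifting datum
`(Φ, c)` of `φ`. -/
theorem exists_beta [Nonempty ι] [Module.Finite k M] (hM : 𝒰.IsSmooth M)
    (hBeq : ∀ (g : G) (m' : M') (m : M), B (M'.ρ g m') (M.ρ g m) = μ.ρ g (B m' m))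
    (hBbij : Function.Bijective B) :
    ∃ β : eqHom M (YObj (r := r) hμ) →ₗ[k] 𝒰.H1 M',
      (∀ φ, ∃ (Φ : M →ₗ[k] JObj 𝒰 r μ) (c : G → M'), IsLift hμ B φ Φ c) ∧
      ∀ (φ : eqHom M (YObj (r := r) hμ)) (Φ : M →ₗ[k] JObj 𝒰 r μ) (c : G → M')
        (_ : IsLift hμ B φ Φ c) (hc : c ∈ 𝒰.Z₁ M'), β φ = 𝒰.H1π M' ⟨c, hc⟩ := by
  classical
  obtain ⟨v₀⟩ := ‹Nonempty ι›
  haveI : Nonempty ι := ⟨v₀⟩
  obtain ⟨s, hs⟩ := LinearMap.exists_rightInverse_of_surjective (qY (r := r) hμ).1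
    (LinearMap.range_eq_top.2 (cokerProj_surjective _))
  have hs' : ∀ y, (qY (r := r) hμ).1 (s y) = y := fun y => LinearMap.congr_fun hs y
  let e : M' ≃ₗ[k] (M →ₗ[k] μ) := LinearEquiv.ofBijective B hBbij
  let ev₀ : (JObj 𝒰 r μ) →ₗ[k] μ := evLin (𝒰 := 𝒰) (r := r) (μ := μ) v₀
  -- the difference `g Φ g⁻¹ - Φ`, linear in `Φ`
  let Dl : G → (M →ₗ[k] JObj 𝒰 r μ) →ₗ[k] (M →ₗ[k] JObj 𝒰 r μ) := fun g =>
    LinearMap.compRight k ((JObj 𝒰 r μ).ρ g) ∘ₗ LinearMap.lcomp k _ (M.ρ g⁻¹) - LinearMap.id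
  let cg : G → eqHom M (YObj (r := r) hμ) →ₗ[k] M' := fun g =>
    e.symm.toLinearMap ∘ₗ LinearMap.compRight k ev₀ ∘ₗ Dl g ∘ₗ LinearMap.compRight k s ∘ₗ
      (eqHom M (YObj (r := r) hμ)).subtype
  let cL : eqHom M (YObj (r := r) hμ) →ₗ[k] (G → M') := LinearMap.pi cg
  have hB : ∀ φ g m, B (cL φ g) m = ev₀ ((JObj 𝒰 r μ).ρ g (s (φ.1 (M.ρ g⁻¹ m))) - s (φ.1 m)) := by
    intro φ g m
    have : B (cL φ g) = e (e.symm (ev₀ ∘ₗ Dl g (s ∘ₗ φ.1))) := rfl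
    rw [this, e.apply_symm_apply]
    rfl
  have hlift : ∀ φ, IsLift hμ B φ (s ∘ₗ φ.1) (cL φ) := by
    intro φ
    refine ⟨fun m => hs' _, fun g m => ?_⟩
    rw [hB]
    show _ = (JObj 𝒰 r μ).ρ g (s (φ.1 (M.ρ g⁻¹ m))) - s (φ.1 m)
    have h0 : (qY (r := r) hμ).1
        ((JObj 𝒰 r μ).ρ g (s (φ.1 (M.ρ g⁻¹ m))) - s (φ.1 m)) = 0 := by
      have h1 := (qY (r := r) hμ).2 g (s (φ.1 (M.ρ g⁻¹ m)))
      have h2 := φ.2 g (M.ρ g⁻¹ m)
      simp only [MonoidHom.id_apply] at h1 h2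
      rw [map_sub, h1, hs', hs', ← h2, ← Module.End.mul_apply, ← map_mul, mul_inv_cancel,
        map_one, Module.End.one_apply, sub_self]
    obtain ⟨y, hy⟩ := (cokerProj_apply_eq_zero_iff (diag (r := r) hμ) _).1 h0
    rw [← hy]
    congr 1
    exact evLin_diag (r := r) hμ v₀ y
  have hmem : ∀ φ, cL φ ∈ 𝒰.Z₁ M' := fun φ => (hlift φ).mem_Z₁ hBeq hBbij.1 hM
  refine ⟨𝒰.H1π M' ∘ₗ LinearMap.codRestrict (𝒰.Z₁ M') cL hmem, fun φ => ⟨_, _, hlift φ⟩,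
    fun φ Φ c h hc => ?_⟩
  show 𝒰.H1π M' ⟨cL φ, hmem φ⟩ = 𝒰.H1π M' ⟨c, hc⟩
  rw [← sub_eq_zero, ← map_sub, LevelStr.H1π_eq_zero_iff]
  exact (hlift φ).sub_mem_coboundaries₁ hBeq hBbij.1 hBbij.2 h

end construction

end Fermat.Agent.S55.Dualizing59
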